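import Fermat.Agent.Entry.Surj.Count
import Fermat.Agent.Lowering.P7.Residual

/-!
# The model of level `M` is smooth at every prime not dividing `M`

Reduction is injective on torsion prime to the residue characteristic and the count of torsion
over an algebraic closure of a finite field bounds it by the genus of the special fibre, so the
genus does not drop.
-/

set_option autoImplicit false
set_option linter.style.haveILetI false
set_option linter.unusedSectionVars false
set_option synthInstance.maxHeartbeats 400000
set_option maxHeartbeats 1000000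

noncomputable section

open AlgebraicCurve ModularCurve IsLocalRing

namespace FLTAgent.ModLift.LowerAway

open FLTAgent.Curves FLTAgent.Specialization

local notation "QA" => AlgebraicClosure ℚ

variable {q : ℕ} [Fact q.Prime] {M : ℕ} [NeZero M] (hqM : ¬ q ∣ M)
  {A : ValuationSubring QA} [IsAlgClosed (ResidueField A)] [CharP (ResidueField A) q]
  [Curves.IsFunctionField (ResidueField A) (modularFunctionFieldFullC (ResidueField A) M)]
  (hA : A.LiesOverPrime q)

local notation "kk" => ResidueField A

include hA in
/-- **Smoothness at every prime not dividing the level.** -/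
theorem smooth_any :
    (modularModel (π := residue A) residue_surjective M
      (BadRed.natCast_ne_zero hqM kk)).Smooth := by
  set MC := modularModel (π := residue A) residue_surjective M (BadRed.natCast_ne_zero hqM kk)
  haveI := Specialization.instIsFunctionFieldX0Bar M
  letI := ZMod.algebra kk q
  haveI : Algebra.IsAlgebraic (ZMod q) kk := FrobTrace.isAlgebraic_residueField hA
  obtain ⟨l, hlge, hl⟩ := Nat.exists_infinite_primes (q + 1)
  haveI : Fact l.Prime := ⟨hl⟩
  have hql : ¬ q ∣ l := fun h => by
    have := (Nat.prime_dvd_prime_iff_eq Fact.out hl).1 h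
    omega
  have hgood : ∀ (M' : ℕ) [NeZero M'], auxLevel q ∣ M' → ¬ q ∣ M' → GoodLevel A M' :=
    fun M' _ h1 h2 => GoodModel.goodLevel hA M' h1 h2
  have h := reductionInputsModL hA hgood M hqM
  have hF := Jac27.Finite.targetFiniteField_of Jac27.Finite.targetCountData
    Jac27.Finite.targetTorsion q kk (modularFunctionFieldFullC kk M) l 1 hl (by omega)
  have hcard := Entry.Surj.card_torsion (K := QA) (E := X0Bar M) l 1
  set red := reductionModL A M
  have hmap : ∀ z : Pic0.torsion QA (X0Bar M) (l ^ 1),
      red z.1 ∈ Pic0.torsion kk (modularFunctionFieldFullC kk M) (l ^ 1) := fun z =>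
    Pic0.mem_torsion.2 (by rw [← map_zsmul, Pic0.mem_torsion.1 z.2, map_zero])
  haveI : Finite (Pic0.torsion kk (modularFunctionFieldFullC kk M) (l ^ 1)) :=
    Nat.finite_of_card_ne_zero (by rw [hF]; exact pow_ne_zero _ hl.ne_zero)
  have hinj : Function.Injective fun z : Pic0.torsion QA (X0Bar M) (l ^ 1) =>
      (⟨red z.1, hmap z⟩ : Pic0.torsion kk (modularFunctionFieldFullC kk M) (l ^ 1)) := fun z w hzw => by
    refine Subtype.ext (sub_eq_zero.1 ?_)
    refine eq_zero_of_reductionModL_eq_zero hA hgood M hqM h (l ^ 1)
      (by rw [pow_one]; exact hql) _ ?_ ?_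
    · rw [← natCast_zsmul]
      exact Pic0.mem_torsion.1 (sub_mem z.2 w.2)
    · rw [map_sub, sub_eq_zero]
      exact congrArg Subtype.val hzw
  have hle := Nat.card_le_card_of_injective _ hinj
  have hle' : (l : ℤ) ^ (2 * (rGenus QA (X0Bar M)).toNat * 1) ≤
      (l : ℤ) ^ (2 * (rGenus kk (modularFunctionFieldFullC kk M)).toNat * 1) := by
    rw [← hcard, ← Nat.cast_pow, ← hF]
    exact_mod_cast hle
  have hg := (pow_le_pow_iff_right₀ (by exact_mod_cast hl.one_lt : (1 : ℤ) < l)).1 hle'
  have hgL := Jac27.Finite.Geom.rGenus_nonneg (K := QA) (F := X0Bar M)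
  have hgk := Jac27.Finite.Geom.rGenus_nonneg (K := kk) (F := modularFunctionFieldFullC kk M)
  obtain ⟨m₁, hm₁⟩ := MC.exists_le_mul
    (max (rBound QA (X0Bar M)) (rBound kk (modularFunctionFieldFullC kk M)))
  refine ⟨m₁, fun m hm => ?_⟩
  have h2 := hm₁ m hm
  rw [ell_eq (by rw [MC.degree_poles_red]; omega), ell_eq (by rw [MC.degree_poles]; omega),
    MC.degree_poles_red, MC.degree_poles]
  omega

end FLTAgent.ModLift.LowerAway
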