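import Fermat.Agent.ModLift.LowerAway.Residual
import Fermat.Agent.Entry.Assembly.FixedPair

/-!
# Mazur's principle away from `p`, at every prime

If a residual system with full image is seen at level `Mt` and not at level `M`, the translates by
an auxiliary `T_r` of a stable part of its eigenspace satisfy the congruence at the finite points,
so Frobenius at `t` acts there as minus `t` times the exchange: it is central, `t` is `1` modulo
`p` and Frobenius at `t` is scalar.
-/

set_option autoImplicit false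
set_option linter.style.haveILetI false
set_option linter.unusedSectionVars false
set_option synthInstance.maxHeartbeats 400000
set_option maxHeartbeats 1000000

noncomputable section

open AlgebraicCurve ModularCurve IsLocalRing

namespace FLTAgent.ModLift.LowerAway

open Matrix FLTAgent.Curves FLTAgent.Specialization FLTAgent.BadRed FLTAgent.MazurPrinciple
open FLTAgent.EigenLattice (pushPic GoodIdx evalGood opAct torsCoord galMx torsCoord_opAct Ix)
open FLTAgent.Lowering.P7 (classOf_intSmul swapAut swapAut_smul_galois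
  one_and_scalar_of_central finrank_two RepR)

local notation "QA" => AlgebraicClosure ℚ
local notation "GG" => (AlgebraicClosure ℚ ≃ₐ[ℚ] AlgebraicClosure ℚ)

attribute [local instance 2000] Lowering.P7.fullCAlgebra Lowering.P7.laurentAlgebra
  Lowering.P7.x0BarAlgebra

variable {p : ℕ} [Fact p.Prime] [NeZero p] (S : Entry.Sys p)

/-- The traces at the good primes are `a`. -/
def HasTraces (N : ℕ) (a : ℕ → ℤ) : Prop :=
  ∀ ℓ : ℕ, ℓ.Prime → ¬ ℓ ∣ N → ℓ ∉ S.bad → ∀ A : ValuationSubring QA, A.LiesOverPrime ℓ →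
    ∀ τ : GG, A.IsFrobeniusAt τ ℓ → S.tr τ = (a ℓ : ZMod p)

section System

variable {N : ℕ} [NeZero N] (κ : AlgebraicClosure ℚ →+* ℂ) {a : ℕ → ℤ} (hE : HasTraces S N a)
include hE

/-- A nonzero stable part fixed by the kernel of the representation. -/
theorem exists_stable_kerFixed (h0 : eigenSpace N p S.bad a ≠ ⊥) :
    ∃ W : Submodule (ZMod p) (eigenSpace N p S.bad a), W ≠ ⊥ ∧
      (∀ g, ∀ w ∈ W, eigenSpaceRep N κ p S.bad a g w ∈ W) ∧
      ∀ g, S.rb g = 1 → ∀ w ∈ W, eigenSpaceRep N κ p S.bad a g w = w := by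
  haveI : Nontrivial (eigenSpace N p S.bad a) := Submodule.nontrivial_iff_ne_bot.2 h0
  set r := eigenSpaceRep N κ p S.bad a
  let K : Subgroup GG := S.rb.ker
  obtain ⟨v, hv0, hv⟩ := exists_fixed_of_unipotent r K fun g hg => by
    have h := S.eigen_relation κ hE g
    rw [show S.tr g = Matrix.trace (S.rb g : Matrix (Fin 2) (Fin 2) (ZMod p)) from rfl,
      MonoidHom.mem_ker.1 hg, Units.val_one, Matrix.trace_one, Matrix.det_one, Fintype.card_fin,
      Nat.cast_ofNat, two_smul, one_smul] at h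
    rw [sub_mul, mul_sub, mul_one, one_mul, ← h]
    abel
  refine ⟨{ carrier := {w | ∀ g ∈ K, r g w = w}
            zero_mem' := fun g _ => map_zero _
            add_mem' := fun ha hb g hg => by rw [map_add, ha g hg, hb g hg]
            smul_mem' := fun c x hx g hg => by rw [map_smul, hx g hg] },
    (Submodule.ne_bot_iff _).2 ⟨v, hv, hv0⟩, fun γ w hw g hg => ?_,
    fun g hg w hw => hw g (MonoidHom.mem_ker.2 hg)⟩
  have h := congrArg (r γ) (hw _ (Subgroup.Normal.conj_mem' (MonoidHom.normal_ker _) g hg γ))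
  rwa [← Module.End.mul_apply, ← map_mul, mul_assoc, mul_inv_cancel_left, map_mul,
    Module.End.mul_apply] at h

/-- Some good prime is not of Eisenstein type. -/
theorem exists_good_not_eisenstein (hp2 : p ≠ 2) (hsur : Function.Surjective S.rb) :
    ∃ l : ℕ, l.Prime ∧ ¬ l ∣ N ∧ l ∉ S.bad ∧ (a l : ZMod p) - (l + 1) ≠ 0 := by
  classical
  by_contra hcon
  push Not at hcon
  let w : GL (Fin 2) (ZMod p) :=
    ⟨!![0, -1; 1, 0], !![0, 1; -1, 0], by simp [Matrix.one_fin_two], by simp [Matrix.one_fin_two]⟩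
  obtain ⟨g, hg⟩ := hsur w
  obtain ⟨ℓ, A, τ, k, hℓ, hℓN, hℓS, hA, hτ, e1, -⟩ :=
    S.exists_frobenius_pow (N := N) FLTAgent.Kronecker.complexEmb g
  set f := S.rho τ
  have ht' : LinearMap.trace (ZMod p) (Fin 2 → ZMod p) f = 1 + LinearMap.det f := by
    rw [S.trace_rho, S.det_rho, hE ℓ hℓ hℓN hℓS A hA τ hτ,
      S.det_frobenius hℓ (S.ne_p_of_notMem hℓS) hA hτ]
    linear_combination hcon ℓ hℓ hℓN hℓS
  have key : ∀ i, LinearMap.trace (ZMod p) (Fin 2 → ZMod p) (f ^ i) = 1 + LinearMap.det f ^ i ∧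
      LinearMap.trace (ZMod p) (Fin 2 → ZMod p) (f ^ (i + 1)) = 1 + LinearMap.det f ^ (i + 1) := by
    intro i
    induction i with
    | zero =>
      rw [pow_zero, LinearMap.trace_one, finrank_two, zero_add, pow_one, pow_one, pow_zero, ht']
      norm_num
    | succ i ih =>
      refine ⟨ih.2, ?_⟩
      have h := congrArg (fun x => LinearMap.trace (ZMod p) (Fin 2 → ZMod p) (f ^ i * x))
        (end_mul_self finrank_two f)
      simp only [mul_add, mul_sub, mul_smul_comm, mul_one, mul_zero, map_add, map_sub, map_smul,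
        smul_eq_mul, map_zero, ← pow_two, ← pow_add, ← pow_succ, ih.1, ih.2, ht'] at h
      linear_combination h
  have e4 : f ^ k = S.rho g := by
    rw [← map_pow]
    show Matrix.toLin' _ = Matrix.toLin' (S.rb g : Matrix (Fin 2) (Fin 2) (ZMod p))
    rw [e1, ← map_pow S.rb]
    rfl
  have h1 := (key k).1
  rw [← map_pow LinearMap.det, e4, S.trace_rho, S.det_rho, hg] at h1
  simp [w, Entry.Sys.tr, Matrix.trace_fin_two, Matrix.det_fin_two, hg] at h1
  have h2 : ((2 : ℕ) : ZMod p) = 0 := by push_cast; linear_combination -h1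
  have h3 := (ZMod.natCast_eq_zero_iff 2 p).1 h2
  have := Nat.le_of_dvd (by norm_num) h3
  have := (Fact.out : p.Prime).two_le
  omega

end System

variable {t M : ℕ} [Fact t.Prime] [NeZero t] [NeZero M] [NeZero (M * t)]

/-- At any prime other than `p`, a system killed at the lower level forces `t ≡ 1` and a scalar Frobenius. -/
theorem scalar_of_killed (hp2 : p ≠ 2) (hsur : Function.Surjective S.rb) (htM : ¬ t ∣ M)
    (htp : t ≠ p) {a : ℕ → ℤ} (hE : HasTraces S (M * t) a) {r₀ : ℕ} (hr₀p : r₀.Prime)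
    (hr₀12 : r₀ % 12 = 11) (hr₀N : ¬ r₀ ∣ M * t) (hr₀b : r₀ ∉ S.bad)
    (hr₀a : (a r₀ : ZMod p) ≠ 0)
    (h0 : eigenSpace (M * t) p S.bad a ≠ ⊥)
    (P : MvPolynomial (GoodIdx (M * t) S.bad) ℤ) (hP0 : evalGood (M * t) S.bad M P = 0)
    (hPa : (systemEval (M * t) S.bad a P : ZMod p) ≠ 0)
    {V : ValuationSubring QA} (hV : V.LiesOverPrime t)
    (hram : ∀ σ ∈ V.inertiaSubgroupIn ℚ, S.rb σ = 1) {φ : GG} (hφ : V.IsFrobeniusAt φ t) :
    (t : ZMod p) = 1 ∧
      ∃ b : ZMod p, (S.rb φ : Matrix (Fin 2) (Fin 2) (ZMod p)) = b • 1 := by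
  set κ := FLTAgent.Kronecker.complexEmb
  haveI : IsAlgClosed (ResidueField V) := FrobTrace.isAlgClosed_residueField V
  haveI : CharP (ResidueField V) t := FrobTrace.charP_residueField hV
  haveI := isFunctionField_full (ResidueField V) M rfl (BadRed.natCast_ne_zero htM (ResidueField V))
  have hp := (Fact.out : p.Prime)
  have hnS : ∀ l : ℕ, l.Prime → l ∣ p → l ∈ S.bad := fun l hl h =>
    ((Nat.prime_dvd_prime_iff_eq hl hp).1 h) ▸ S.p_mem
  have htn : ¬ t ∣ p := fun h => htp ((Nat.prime_dvd_prime_iff_eq Fact.out hp).1 h)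
  haveI : Fact r₀.Prime := ⟨hr₀p⟩
  haveI : NeZero r₀ := ⟨hr₀p.ne_zero⟩
  have hr₀t : r₀ ≠ t := fun h => hr₀N (h ▸ dvd_mul_left t M)
  obtain ⟨U, hUu, -, -, hub⟩ := exists_unitData (M := M) htM residue_surjective (rankOne_residue hV)
  obtain ⟨r, hr, hrN, hrb, hra⟩ := exists_good_not_eisenstein S hE hp2 hsur
  haveI : Fact r.Prime := ⟨hr⟩
  haveI : NeZero r := ⟨hr.ne_zero⟩
  obtain ⟨W, hW0, hWst, hWfix⟩ := exists_stable_kerFixed S κ hE h0
  set d : ℤ := a r - ((r + 1 : ℕ) : ℤ) with hd
  set c : ZMod p := (systemEval (M * t) S.bad a P : ZMod p) * (d : ZMod p) * (a r₀ : ZMod p) with hc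
  have hc0 : c ≠ 0 := mul_ne_zero (mul_ne_zero hPa (by rw [hd]; push_cast; exact hra)) hr₀a
  have key : ∀ v ∈ W, φ • classOf (M * t) κ p v.1 +
      t • (swapAut htM • classOf (M * t) κ p v.1) = 0 := by
    intro v hv
    set u : FLTAgent.EigenLattice.Ix (M * t) → ZMod p := c⁻¹ • v.1 with hu
    have huE : u ∈ eigenSpace (M * t) p S.bad a := Submodule.smul_mem _ _ v.2
    set u₀ : Ix (M * t) → ZMod p := (a r₀ : ZMod p) • u with hu₀
    have hu₀E : u₀ ∈ eigenSpace (M * t) p S.bad a := Submodule.smul_mem _ _ huE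
    set x := (torsCoord (N := M * t) κ p).symm u₀ with hx
    set w := (torsCoord (N := M * t) κ p).symm ((d : ZMod p) • u₀) with hw
    have hxc : (x : JZero (M * t)) = classOf (M * t) κ p u₀ := rfl
    have hwc : (w : JZero (M * t)) = classOf (M * t) κ p ((d : ZMod p) • u₀) := rfl
    have hfix : ∀ τ ∈ V.inertiaSubgroupIn ℚ,
        τ • classOf (M * t) κ p u = classOf (M * t) κ p u := fun τ hτ => by
      rw [smul_classOf, hu, Matrix.mulVec_smul, ← coe_eigenSpaceRep,
        hWfix τ (hram τ hτ) v hv]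
    have hx0 : heckeOperatorAlong QA (M * t) r₀ (classOf (M * t) κ p u) = (x : JZero (M * t)) := by
      rw [hxc, hu₀, classOf_intSmul]
      exact hecke_classOf (M * t) κ p S.bad a huE r₀ hr₀p hr₀N hr₀b
    have hT : heckeOperatorAlong QA (M * t) r (x : JZero (M * t)) = a r • (x : JZero (M * t)) := by
      rw [hxc]
      exact hecke_classOf (M * t) κ p S.bad a hu₀E r hr hrN hrb
    have hα : pushPic M t (heckeAlphaBar QA M t) (x : JZero (M * t)) = 0 :=
      pushPic_classOf κ p S.bad a _ (fun τ u => (galois_smul_alpha τ u).symm) S.p_mem P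
        hP0 hPa hu₀E
    obtain ⟨rT, ν, α, β, hβ, hν0, hν, hcong⟩ := exists_congr_translate htM hV hφ hr₀12 hr₀t U hUu
      htn (nsmul_classOf (M * t) κ p u) hfix (by rw [hx0]; exact hα)
    have h := frobenius_eq htM hV S.bad κ (n := p) hφ htn hnS U hub P hP0 (r := r) hrN x w
      (by rw [hT, hwc, classOf_intSmul, hd, sub_smul, neg_smul, ← hxc, sub_eq_add_neg])
      (rT.cast hx0) ⟨ν, α, β, hβ, hν0, hν, hcong⟩ hα (by rw [hT, map_zsmul, hα, smul_zero])
    have hz : (opAct κ p (evalGood (M * t) S.bad (M * t) P) w : JZero (M * t)) =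
        classOf (M * t) κ p v.1 := by
      rw [classOf]
      refine congrArg Subtype.val ((torsCoord (N := M * t) κ p).injective ?_)
      rw [torsCoord_opAct, hw, AddEquiv.apply_symm_apply, AddEquiv.apply_symm_apply]
      show Matrix.mulVec (heckeP (M * t) p _) _ = _
      rw [evalGood_mulVec (M * t) p S.bad a P (Submodule.smul_mem _ _ hu₀E), hu₀, smul_smul, smul_smul,
        hu, smul_smul, ← hc, mul_inv_cancel₀ hc0, one_smul]
    rw [hz] at h
    exact h
  set rE := eigenSpaceRep (M * t) κ p S.bad a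
  have hcls : ∀ g (v : eigenSpace (M * t) p S.bad a),
      classOf (M * t) κ p (rE g v).1 = g • classOf (M * t) κ p v.1 := fun g v => by
    rw [coe_eigenSpaceRep, ← smul_classOf]
  have hneg : ∀ v ∈ W, φ • classOf (M * t) κ p v.1 =
      -(t • (swapAut htM • classOf (M * t) κ p v.1)) := fun v hv =>
    eq_neg_of_add_eq_zero_left (key v hv)
  refine one_and_scalar_of_central S.rb rE hsur W hW0 hWst (fun g w _ => ?_)
    (S.det_frobenius Fact.out htp hV hφ) (fun g v hv => ?_) fun v hv => ?_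
  · have h := DFunLike.congr_fun (S.eigen_relation κ hE g) w
    simpa [Entry.Sys.tr] using h
  · refine Subtype.ext (classOf_injective _ κ p ?_)
    rw [hcls φ, hcls g (rE φ v), hcls φ v, hneg _ (hWst g v hv), hcls g v, hneg v hv,
      swapAut_smul_galois,
      smul_neg, smul_comm g t]
  · refine Subtype.ext (classOf_injective _ κ p ?_)
    have hsw : swapAut htM • (swapAut htM • classOf (M * t) κ p v.1) =
        classOf (M * t) κ p v.1 := by
      rw [← mul_smul, show swapAut htM * swapAut htM = (1 : SemilinearAut QA (X0Bar (M * t))) from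
        Subtype.ext (Prod.ext (RingEquiv.ext fun z => swapEnd_swapEnd htM z)
          (RingEquiv.ext fun z => rfl)), one_smul]
    rw [hcls, hcls, hneg v hv, smul_neg, smul_comm φ t, ← swapAut_smul_galois, hneg v hv,
      smul_neg, smul_comm (swapAut htM) t, hsw, neg_nsmul, neg_neg, Submodule.coe_smul,
      ← Nat.cast_mul, classOf_smul]
    exact (mul_nsmul _ _ _).symm

end FLTAgent.ModLift.LowerAway
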