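import Fermat.Agent.Entry.Interface
import Fermat.Agent.ModLift.Modules.Separation
import Fermat.Agent.DetCyclo.Basic

/-!
# An auxiliary prime which is `11` modulo `12` with nonzero trace

For a representation with full image some element moves the twelfth roots of unity by inversion
and has nonzero trace, and so does every generator of the subgroup it generates.
-/

set_option autoImplicit false
set_option linter.style.haveILetI false
set_option linter.unusedSectionVars false

noncomputable section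

namespace FLTAgent.ModLift.LowerAway

open Matrix

local notation "QA" => AlgebraicClosure ℚ
local notation "GG" => (AlgebraicClosure ℚ ≃ₐ[ℚ] AlgebraicClosure ℚ)

theorem eleven_pow_mod (m : ℕ) : 11 ^ m % 12 = if Even m then 1 else 11 := by
  induction m with
  | zero => simp
  | succ m ih =>
    rw [pow_succ, Nat.mul_mod, ih]
    by_cases h : Even m <;> simp [h, Nat.even_add_one]

variable {p : ℕ} [Fact p.Prime]

local notation "MM" => Matrix (Fin 2) (Fin 2) (ZMod p)

/-- An element moving a twelfth root of unity by inversion, with nonzero trace. -/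
theorem exists_inv_twelve_trace (S : Entry.Sys p) (hp2 : p ≠ 2)
    (hsur : Function.Surjective S.rb) {ζ : QA} (hζ : IsPrimitiveRoot ζ 12) :
    ∃ σ : GG, σ ζ = ζ ^ 11 ∧ S.tr σ ≠ 0 := by
  haveI : Algebra.IsAlgebraic ℚ QA := AlgebraicClosure.isAlgebraic ℚ
  haveI : IsAlgClosure ℚ QA := ⟨inferInstance, inferInstance⟩
  haveI : Normal ℚ QA := IsAlgClosure.normal ℚ _
  obtain ⟨c, hc⟩ : ∃ c : GG, c ζ = ζ ^ 11 := by
    have h1 : minpoly ℚ ζ = minpoly ℚ (ζ ^ 11) :=
      (Polynomial.cyclotomic_eq_minpoly_rat hζ (by norm_num)).symm.trans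
        (Polynomial.cyclotomic_eq_minpoly_rat (hζ.pow_of_coprime 11 (by norm_num)) (by norm_num))
    exact minpoly.exists_algEquiv_of_root' (Algebra.IsAlgebraic.isAlgebraic ζ)
      (by rw [h1]; exact minpoly.aeval ℚ _)
  have hsq : ∀ x : GG, x (x ζ) = ζ := fun x => by
    obtain ⟨e, -, hcop, he⟩ := (hζ.isPrimitiveRoot_iff).1 (hζ.map_of_injective x.injective)
    have h : x (x ζ) = ζ ^ (e * e) := by rw [← he, map_pow, ← he, pow_mul]
    have he2 : e * e % 12 = 1 := by
      have h12 : e % 12 < 12 := Nat.mod_lt _ (by norm_num)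
      have hc' : Nat.Coprime (e % 12) 12 := by
        rwa [Nat.Coprime, ← Nat.gcd_rec, Nat.gcd_comm]
      rw [Nat.mul_mod]
      generalize e % 12 = f at h12 hc'
      interval_cases f <;> simp_all (config := { decide := true })
    rw [h, ← Nat.mod_add_div (e * e) 12, he2, pow_add, pow_mul, hζ.pow_eq_one, one_pow, pow_one,
      mul_one]
  obtain ⟨x, hx⟩ := hsur ⟨!![1, 1; 0, 1], !![1, -1; 0, 1], by simp [Matrix.one_fin_two],
    by simp [Matrix.one_fin_two]⟩
  obtain ⟨y, hy⟩ := hsur ⟨!![1, 0; 1, 1], !![1, 0; -1, 1], by simp [Matrix.one_fin_two],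
    by simp [Matrix.one_fin_two]⟩
  by_contra hcon
  push Not at hcon
  have h1 := hcon c hc
  have h2 := hcon (c * (x * x)) (by rw [AlgEquiv.mul_apply, AlgEquiv.mul_apply, hsq, hc])
  have h3 := hcon (c * (y * y)) (by rw [AlgEquiv.mul_apply, AlgEquiv.mul_apply, hsq, hc])
  have h4 := hcon (c * (x * x * (y * y)))
    (by rw [AlgEquiv.mul_apply, AlgEquiv.mul_apply, AlgEquiv.mul_apply, AlgEquiv.mul_apply, hsq,
      hsq, hc])
  simp only [Entry.Sys.tr, map_mul, hx, hy, Units.val_mul] at h1 h2 h3 h4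
  simp [Matrix.trace_fin_two, Matrix.mul_apply, Fin.sum_univ_two] at h1 h2 h3 h4
  have hne : (2 : ZMod p) ≠ 0 := fun h => hp2 ((Nat.prime_dvd_prime_iff_eq Fact.out Nat.prime_two).1
    ((ZMod.natCast_eq_zero_iff 2 p).1 (by exact_mod_cast h)))
  set C : MM := (S.rb c : MM) with hC
  have e10 : C 1 0 = 0 := (mul_eq_zero.1 (show 2 * C 1 0 = 0 by linear_combination h2 - h1)).resolve_left hne
  have e01 : C 0 1 = 0 := (mul_eq_zero.1 (show 2 * C 0 1 = 0 by linear_combination h3 - h1)).resolve_left hne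
  have e00 : C 0 0 = 0 := (mul_eq_zero.1 (show (2 * 2) * C 0 0 = 0 by
    linear_combination h4 - h1 - 2 * e01 - 2 * e10)).resolve_left (mul_ne_zero hne hne)
  have e11 : C 1 1 = 0 := by linear_combination h1 - e00
  have hdet : IsUnit C.det := (Matrix.isUnit_iff_isUnit_det C).1 (Units.isUnit _)
  exact hdet.ne_zero (by rw [Matrix.det_fin_two, e00, e01]; ring)

/-- A prime `11` modulo `12` whose Frobenius elements have nonzero trace. -/
theorem exists_aux_eleven (S : Entry.Sys p) (hp2 : p ≠ 2) (hsur : Function.Surjective S.rb)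
    (T : Finset ℕ) :
    ∃ (l : ℕ) (V : ValuationSubring QA) (τ : GG), l.Prime ∧ l ∉ T ∧ l % 12 = 11 ∧
      V.LiesOverPrime l ∧ V.IsFrobeniusAt τ l ∧ S.tr τ ≠ 0 := by
  obtain ⟨L₁, hL₁, h1⟩ := S.level
  haveI := hL₁
  haveI : NeZero (12 : QA) := ⟨by norm_num⟩
  haveI : Algebra.IsAlgebraic ℚ QA := AlgebraicClosure.isAlgebraic ℚ
  obtain ⟨ζ, hζ⟩ := HasEnoughRootsOfUnity.exists_primitiveRoot QA 12
  obtain ⟨σ, hσ, htσ⟩ := exists_inv_twelve_trace S hp2 hsur hζ
  haveI := IntermediateField.adjoin.finiteDimensional (K := ℚ)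
    (Algebra.IsIntegral.isIntegral (R := ℚ) ζ)
  obtain ⟨l, V, τ, j, k, hl, hlT, hV, hτ, hjk⟩ :=
    exists_frobenius_zpowers_eqOn (L₁ ⊔ IntermediateField.adjoin ℚ {ζ}) σ (T ∪ {2, 3})
  have hl2 : l ≠ 2 := fun h => hlT (by simp [h])
  have hl3 : l ≠ 3 := fun h => hlT (by simp [h])
  have hτζ : τ ζ = ζ ^ l := by
    haveI : Fact (Nat.Prime 2) := ⟨Nat.prime_two⟩
    haveI : Fact (Nat.Prime 3) := ⟨Nat.prime_three⟩
    have h4 := DetCyclo.cycloExponent_frobenius (p := 2) hl hl2 hV hτ 2 (ζ ^ 3)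
      (by rw [← pow_mul]; exact hζ.pow_eq_one)
    have h3 := DetCyclo.cycloExponent_frobenius (p := 3) hl hl3 hV hτ 1 (ζ ^ 4)
      (by rw [← pow_mul]; exact hζ.pow_eq_one)
    have hz : ζ = ζ ^ 4 / ζ ^ 3 := by
      rw [eq_div_iff (pow_ne_zero _ (hζ.ne_zero (by norm_num)))]
      ring
    conv_lhs => rw [hz, map_div₀, h3, h4, ← div_pow, ← hz]
  have hpow : ∀ (g : GG) (a : ℕ), g ζ = ζ ^ a → ∀ i, (g ^ i) ζ = ζ ^ a ^ i := fun g a hg i => by
    induction i with
    | zero => simp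
    | succ i ih => rw [pow_succ', AlgEquiv.mul_apply, ih, map_pow, hg, ← pow_mul, ← pow_succ']
  have hζmem : ζ ∈ L₁ ⊔ IntermediateField.adjoin ℚ {ζ} :=
    (le_sup_right : IntermediateField.adjoin ℚ {ζ} ≤ _) (IntermediateField.mem_adjoin_simple_self ℚ ζ)
  obtain ⟨hk, hj⟩ := hjk ζ hζmem
  rw [hσ, hpow τ l hτζ] at hk
  rw [hτζ, hpow σ 11 hσ] at hj
  have hmod : ∀ {a b : ℕ}, ζ ^ a = ζ ^ b → a % 12 = b % 12 := fun {a b} h =>
    hζ.pow_inj (Nat.mod_lt _ (by norm_num)) (Nat.mod_lt _ (by norm_num)) (by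
      rwa [← pow_eq_pow_mod a hζ.pow_eq_one, ← pow_eq_pow_mod b hζ.pow_eq_one])
  have hl' : l % 12 = if Even j then 1 else 11 := by rw [← eleven_pow_mod]; exact hmod hj
  have hk' : l ^ k % 12 = 11 := (hmod hk).symm
  have hjk' : ¬ Even j ∧ ¬ Even k := by
    rw [Nat.pow_mod, hl'] at hk'
    by_cases hje : Even j
    · simp [hje] at hk'
    · refine ⟨hje, fun hke => ?_⟩
      rw [if_neg hje, eleven_pow_mod, if_pos hke] at hk'
      omega
  refine ⟨l, V, τ, hl, fun h => hlT (Finset.mem_union_left _ h), ?_, hV, hτ, fun htr => htσ ?_⟩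
  · rw [hl', if_neg hjk'.1]
  · have heq : S.rb σ = S.rb τ ^ k := by
      have h := h1 ((τ ^ k)⁻¹ * σ) fun x hx => by
        rw [AlgEquiv.mul_apply, (hjk x ((le_sup_left : L₁ ≤ _) hx)).1]
        exact (τ ^ k).symm_apply_apply x
      rw [map_mul, map_inv, inv_mul_eq_one, map_pow] at h
      exact h.symm
    set B : MM := (S.rb τ : MM) with hB
    have h00 : B 0 0 + B 1 1 = 0 := by rw [← Matrix.trace_fin_two]; exact htr
    have hBB : B * B = (-B.det) • (1 : MM) := by
      ext a b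
      fin_cases a <;> fin_cases b <;>
        simp [Matrix.mul_apply, Fin.sum_univ_two, Matrix.det_fin_two]
      · linear_combination B 0 0 * h00
      · linear_combination B 0 1 * h00
      · linear_combination B 1 0 * h00
      · linear_combination B 1 1 * h00
    obtain ⟨m, rfl⟩ := Nat.not_even_iff_odd.1 hjk'.2
    rw [Entry.Sys.tr, heq, Units.val_pow_eq_pow_val, ← hB, pow_add, pow_mul, pow_one, pow_two, hBB,
      smul_pow, one_pow, smul_one_mul, Matrix.trace_smul, show Matrix.trace B = 0 from htr,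
      smul_zero]

end FLTAgent.ModLift.LowerAway
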