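import Fermat.Agent.ModLift.LowerAway.Principle
import Fermat.Agent.ModLift.LowerAway.Eleven
import Fermat.Agent.Entry.Assembly.Occur

/-!
# Removing an unramified prime that is not scalar

If the system of the curve is seen at a squarefree level `M` and not at `M / q`, then Frobenius at
`q` is scalar and `q` is `1` modulo `p`.
-/

set_option autoImplicit false
set_option linter.style.haveILetI false
set_option linter.unusedSectionVars false

noncomputable section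

namespace FLTAgent.ModLift

open FLTAgent.TWPrimes.Res (matHom val_matHom)
open FLTAgent.Lowering.P7 (Seen exists_killed eigenSpace_ne_bot_of_char)

local notation "QA" => AlgebraicClosure ℚ
local notation "GG" => (AlgebraicClosure ℚ ≃ₐ[ℚ] AlgebraicClosure ℚ)

namespace LowerAway

/-- **Mazur's principle away from `p`** for a residual system with full image. -/
theorem lowerAway_principle {p : ℕ} [Fact p.Prime] (S : Entry.Sys p) (hp2 : p ≠ 2)
    (hsur : Function.Surjective S.rb) (M t : ℕ) (ht : t.Prime) (htM : ¬ t ∣ M) (htp : t ≠ p)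
    (hbad : ∀ l : ℕ, l.Prime → l ∣ M * t → l ∈ S.bad)
    (hram : ∀ V : ValuationSubring QA, V.LiesOverPrime t → ∀ σ ∈ V.inertiaSubgroupIn ℚ, S.rb σ = 1)
    (hseen : Seen (M * t) S.bad S.tr) (hns : ¬ Seen M S.bad S.tr) :
    p ∣ t - 1 ∧ ∀ V : ValuationSubring QA, V.LiesOverPrime t → ∀ φ : GG, V.IsFrobeniusAt φ t →
      ∃ a : ZMod p, (S.rb φ : Matrix (Fin 2) (Fin 2) (ZMod p)) = a • 1 := by
  classical
  haveI : NeZero p := ⟨(Fact.out : p.Prime).ne_zero⟩
  haveI : Fact t.Prime := ⟨ht⟩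
  haveI : NeZero t := ⟨ht.ne_zero⟩
  obtain ⟨hN0, θ, hθ⟩ := hseen
  haveI := hN0
  haveI : NeZero M := ⟨left_ne_zero_of_mul (NeZero.ne (M * t))⟩
  set a : ℕ → ℤ := fun l =>
    if h : l.Prime ∧ ¬ l ∣ M * t ∧ l ∉ (↑S.bad : Set ℕ) then
      ((θ (CuspForm.heckeAlgebra.T h.1 h.2.1 h.2.2)).val : ℤ) else 0
  have haT : ∀ (l : ℕ) (hl : l.Prime) (hlN : ¬ l ∣ M * t) (hlb : l ∉ (↑S.bad : Set ℕ)),
      θ (CuspForm.heckeAlgebra.T hl hlN hlb) = (a l : ZMod p) := fun l hl hlN hlb => by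
    simp only [a, dif_pos (show l.Prime ∧ ¬ l ∣ M * t ∧ l ∉ (↑S.bad : Set ℕ) from ⟨hl, hlN, hlb⟩),
      Int.cast_natCast, ZMod.natCast_zmod_val]
  have hE : HasTraces S (M * t) a := fun l hl hlN hlb A hA τ hτ =>
    (hθ l hl hlN (fun h => hlb (Finset.mem_coe.1 h)) A hA τ hτ).symm.trans (haT l hl hlN _)
  obtain ⟨P, hP0, hPa⟩ := exists_killed (p := p) (a := a) (dvd_mul_right M t) hbad
    (fun l hl hlN hlb V hV σ hσ => hE l hl hlN hlb V hV σ hσ) hns
  have h0 := eigenSpace_ne_bot_of_char θ haT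
  obtain ⟨r₀, V₀, τ₀, hr₀p, hr₀b, hr₀12, hV₀, hτ₀, htr⟩ := exists_aux_eleven S hp2 hsur S.bad
  have hr₀N : ¬ r₀ ∣ M * t := fun h => hr₀b (hbad r₀ hr₀p h)
  have main := fun (V : ValuationSubring QA) (hV : V.LiesOverPrime t) (φ : GG)
      (hφ : V.IsFrobeniusAt φ t) =>
    scalar_of_killed S hp2 hsur htM htp hE hr₀p hr₀12 hr₀N hr₀b
      (by rw [← hE r₀ hr₀p hr₀N hr₀b V₀ hV₀ τ₀ hτ₀]; exact htr) h0 P hP0 hPa hV (hram V hV) hφ
  obtain ⟨V, hV⟩ := Frobenius.exists_liesOverPrime t ht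
  obtain ⟨φ, hφ⟩ := Frobenius.exists_isFrobeniusAt V t ht hV
  refine ⟨(ZMod.natCast_eq_zero_iff (t - 1) p).1 ?_, fun V hV φ hφ => (main V hV φ hφ).2⟩
  rw [Nat.cast_sub ht.one_le, (main V hV φ hφ).1, Nat.cast_one, sub_self]

end LowerAway

/-- **The removal from a squarefree level of a prime where the representation is unramified.** -/
theorem targetLowerAway : TargetLowerAway := by
  intro p _ hp35 W hΔ hW hirr N t hsq ht htp htN hun hns hres
  classical
  have hp2 : p ≠ 2 := by rcases hp35 with rfl | rfl <;> norm_num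
  obtain ⟨M, rfl⟩ : ∃ M, N = M * t := ⟨N / t, (Nat.div_mul_cancel htN).symm⟩
  rw [Nat.mul_div_cancel _ ht.pos]
  have htM : ¬ t ∣ M := fun h => ht.not_isUnit (hsq t (Nat.mul_dvd_mul_right h t))
  have hN0 := hsq.ne_zero
  haveI : NeZero (M * t) := ⟨hN0⟩
  set bad : Finset ℕ := insert p ((M * t).primeFactors ∪ W.Δ.natAbs.primeFactors) with hbad
  have hpb : p ∈ bad := Finset.mem_insert_self _ _
  have hbM : ∀ r : ℕ, r.Prime → r ∣ M * t → r ∈ bad := fun r hr h =>
    Finset.mem_insert_of_mem (Finset.mem_union_left _ (Nat.mem_primeFactors.mpr ⟨hr, h, hN0⟩))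
  have hbD : ∀ r : ℕ, r.Prime → (r : ℤ) ∣ W.Δ → r ∈ bad := fun r hr h =>
    Finset.mem_insert_of_mem (Finset.mem_union_right _
      (Nat.mem_primeFactors.mpr ⟨hr, Int.natCast_dvd.mp h, Int.natAbs_ne_zero.mpr hΔ⟩))
  set S := Entry.sysOf W hΔ hW p hp35 hirr bad hpb
  have hseen : Seen (M * t) S.bad S.tr :=
    Entry.seen_of_resMod W hΔ hW p hp35 hirr hpb hbM hbD hres
  refine Entry.resMod_of_seen W hΔ hW p hp35 hirr hpb
    (fun r hr h => hbM r hr (dvd_mul_of_dvd_left h t)) hbD (Classical.byContradiction fun hno => ?_)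
  set b := stdBasis W hΔ p
  obtain ⟨h1, h2⟩ := LowerAway.lowerAway_principle S hp2
    (image_matHom_surjective W hΔ hW p hp35 hirr b) M t ht htM htp hbM
    (fun V hV σ hσ => TWPrimes.Res.matHom_eq_one _ b (hun V hV σ hσ)) hseen hno
  refine hns ⟨h1, fun V hV φ hφ => ?_⟩
  obtain ⟨a, ha⟩ := h2 V hV φ hφ
  refine ⟨a, (LinearMap.toMatrix b b).injective ?_⟩
  rw [map_smul, LinearMap.toMatrix_id]
  exact ha

end FLTAgent.ModLift
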