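import Fermat.Agent.ModLift.LowerAway.Values

/-!
# The order of the first reduction at a glued point through the positions

The reciprocity of the slope lemma, with the valuations of the values on the divisor of `f` found
from the positions of these points.
-/

set_option autoImplicit false
set_option linter.style.haveILetI false
set_option linter.unusedSectionVars false
set_option maxHeartbeats 2000000

noncomputable section

namespace FLTAgent.ModLift.LowerAway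

open AlgebraicCurve FLTAgent.Curves FLTAgent.Specialization FLTAgent.BadRed IntermediateField
open AlgebraicCurve.SemilinearAut (baseAut)
open FLTAgent.MazurPrinciple

variable {L k : Type*} [Field L] [Field k] {A : ValuationSubring L} {π : A →+* k}
  {FC Fb F : Type*} [Field FC] [Field Fb] [Field F] [Algebra L FC]
  [Algebra k Fb] [Algebra L F] [IsAlgClosed L] [IsFunctionField L FC] [IsFunctionField L F]
  [IsAlgClosed k] [IsFunctionField k Fb] {q : ℕ} [Fact q.Prime] {S : Sheet π FC Fb F q}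
  {U : UnitData S} {H : Set (SemilinearAut L F)}

variable (V : RatVal π q) (hS : S.Good) (hdeg : finrankAlong L S.β = q + 1)
  (hS' : ∀ h, (S.swap h).Good)

include V hS hdeg hS'

open scoped Classical in
/-- **Reciprocity at a glued point**, evaluated through the positions. -/
theorem slope_value (hH : LiftsInvariant S H)
    (hliftc : ∀ a : k, ∃ c : A, π c = a ∧ ∀ σ ∈ H, baseAut σ (c : L) = c)
    (hu : ∀ σ ∈ H, σ • U.u = U.u) {n : ℕ}
    {f : F} (hf0 : f ≠ 0) (D : Divisor L F) (hD : ∀ Q, Q.ord f = (n : ℤ) * D Q)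
    {d₁ d₂ : L} {g₁ g₂ : Fb} (hg₁ : g₁ ≠ 0) (hg₂ : g₂ ≠ 0)
    (hr₁ : S.R₁.Res (d₁ • f) g₁) (hr₂ : S.R₂.Res (d₂ • f) g₂)
    {t : Place k Fb} (ht : t ∈ U.nodes) :
    (n : ℚ) * ∑ Q ∈ (((divOf L f).support.filter fun Q => InChart S Q ∧ red hS Q = t)),
        (D Q : ℚ) * (U.w - U.theta V Q) =
      U.w * (t.ord g₁ : ℚ) + (t.ord U.ub : ℚ) * (V.v d₂ - V.v d₁) := by
  classical
  haveI : CharP k q := (CharP.charP_iff_prime_eq_zero Fact.out).2 (by
    rw [← map_natCast π]; exact UnitData.map_p V)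
  set U' := U.swap hS' hdeg
  -- the thresholds near the glued points
  have hnode : ∀ t' ∈ U.nodes, ∃ ρ : ℚ, 0 < ρ ∧ ∀ Q : Place L F, InChart S Q →
      red hS Q = t' → U.theta V Q < ρ → Q.ord f = 0 ∧ ev Q f ≠ 0 ∧
        V.v (ev Q f) = -V.v d₁ + (t'.ord g₁ : ℚ) / t'.ord U.ub * U.theta V Q := by
    intro t' ht'
    obtain ⟨h1, h2⟩ := U.mem_nodes.1 ht'
    obtain ⟨ρ, hρ, hv⟩ := fun_node_value U V hS h1 h2 hg₁ hr₁
    refine ⟨ρ, hρ, fun Q hQ hred hθ => ?_⟩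
    obtain ⟨ha, hb, hc⟩ := hv Q hQ hred hθ
    refine ⟨ha, hb, ?_⟩
    have : (t'.ord U.ub : ℚ) ≠ 0 := by exact_mod_cast h2.ne'
    rw [div_mul_eq_mul_div, ← hc]
    field_simp
    ring
  choose! ρf hρf hρ' using hnode
  set ρs : Finset ℚ := insert 1 (U.nodes.image ρf)
  set ρ := ρs.min' ⟨1, Finset.mem_insert_self _ _⟩
  have hρ : 0 < ρ := by
    refine (Finset.lt_min'_iff _ _).2 ?_
    intro y hy
    simp only [ρs, Finset.mem_insert, Finset.mem_image] at hy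
    rcases hy with rfl | ⟨t', ht', rfl⟩
    exacts [one_pos, hρf t' ht']
  have hρle : ∀ t' ∈ U.nodes, ρ ≤ ρf t' := fun t' ht' =>
    Finset.min'_le _ _ (Finset.mem_insert_of_mem (Finset.mem_image_of_mem _ ht'))
  obtain ⟨B₁, hB₁⟩ := fun_general_value U V hS hg₁ hr₁
  obtain ⟨B₂v, hB₂v⟩ := fun_general_value U' V (hS' hdeg) hg₂ hr₂
  -- the two test functions
  have htZ : (0 : Divisor k Fb) ≤ Finsupp.single t 1 := Finsupp.single_nonneg.2 zero_le_one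
  have htf : ∀ P : Place k Fb, P.ord S.MC.xb < 0 → Finsupp.single t (1 : ℤ) P = 0 := fun P hP =>
    Finsupp.single_eq_of_ne fun h => by
      have := (U.mem_nodes.1 ht).1
      rw [← h] at this
      omega
  obtain ⟨m₁, hm₁⟩ := nonempty_probe hS U hH htZ htf
  obtain ⟨m₂, hm₂⟩ := nonempty_probe hS U hH (Z := (0 : Divisor k Fb)) le_rfl fun P _ => rfl
  set m := 1 + m₁ + m₂
  set supp := (divOf L f).support with hsuppdef
  set chart := supp.filter fun Q => InChart S Q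
  set bad := B₁ ∪ chart.image (red hS)
  obtain ⟨P₁⟩ := hm₁ m (by omega) bad
  obtain ⟨P₀⟩ := hm₂ m (by omega) bad
  have hb₁' : ∀ Q : Place L F, ∃ e₀ : ℕ, ∀ e, e₀ ≤ e → ∀ c : A, π c ≠ 0 →
      (¬ InChart S Q → Q.ord (P₁.num e (c : L) / (U.u * S.X ^ (e * m))) = 0 ∧
        ev Q (P₁.num e (c : L) / (U.u * S.X ^ (e * m))) ≠ 0 ∧
        V.v (ev Q (P₁.num e (c : L) / (U.u * S.X ^ (e * m)))) = 0) ∧
      (¬ InChart S Q → Q.ord (P₀.num e (c : L) / (U.u * S.X ^ (e * m))) = 0 ∧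
        ev Q (P₀.num e (c : L) / (U.u * S.X ^ (e * m))) ≠ 0 ∧
        V.v (ev Q (P₀.num e (c : L) / (U.u * S.X ^ (e * m)))) = 0) ∧
      (InChart S Q → red hS Q = t → ev Q (P₁.num e (c : L)) ≠ 0 ∧
        V.v (ev Q (P₁.num e (c : L))) = U.w) := by
    intro Q
    by_cases hQ : InChart S Q
    · by_cases hQt : red hS Q = t
      · obtain ⟨e₀, he₀⟩ := v_num_of_eq V hS P₁ hQ (by
          have hfin := red_finite hS hQ
          refine (ev_eq_zero_iff _ (S.MC.integralWrt_res P₁.int P₁.res _ hfin)).2 (ordGE_of_le ?_)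
          rw [P₁.node _ (hQt ▸ ht), hQt, Finsupp.single_eq_same])
        exact ⟨e₀, fun e he c hc => ⟨fun h => absurd hQ h, fun h => absurd hQ h,
          fun _ _ => he₀ e he c hc⟩⟩
      · exact ⟨0, fun e _ c _ => ⟨fun h => absurd hQ h, fun h => absurd hQ h,
          fun _ h => absurd h hQt⟩⟩
    · obtain ⟨e₁, he₁⟩ := num_outside V hS P₁ (by omega) hQ
      obtain ⟨e₂, he₂⟩ := num_outside V hS P₀ (by omega) hQ
      exact ⟨e₁ + e₂, fun e he c hc => ⟨fun _ => he₁ e (by omega) c hc,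
        fun _ => he₂ e (by omega) c hc, fun h => absurd h hQ⟩⟩
  choose eQ heQ using hb₁'
  obtain ⟨C₁, n₁, hC₁⟩ := P₁.exists_class V hS hdeg hS' B₂v hρ
  obtain ⟨C₀, n₀, hC₀⟩ := P₀.exists_class V hS hdeg hS' B₂v hρ
  obtain ⟨b₁, hb₁⟩ := P₁.exists_big (by omega)
  obtain ⟨b₀, hb₀⟩ := P₀.exists_big (by omega)
  set e := n₁ + n₀ + b₁ + b₀ + supp.sup eQ
  have he₁ := hb₁ e (by omega)
  have he₀ := hb₀ e (by omega)
  obtain ⟨x₁, hx₁, hx₁'⟩ := exists_ne_pow k q (C₁ ∪ chart.image (red hS))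
    (fun P => ev P P₁.w ^ (e * q)) (fun P => ev P U.ub)
  obtain ⟨x₀, hx₀, hx₀'⟩ := exists_ne_pow k q (C₀ ∪ chart.image (red hS)) (fun P => ev P P₀.w ^ (e * q))
    (fun P => ev P U.ub)
  obtain ⟨c₁, hc₁, hc₁H⟩ := hliftc x₁
  obtain ⟨c₀, hc₀, hc₀H⟩ := hliftc x₀
  have hc₁0 : π c₁ ≠ 0 := hc₁ ▸ hx₁
  have hc₀0 : π c₀ ≠ 0 := hc₀ ▸ hx₀
  have hav₁ : P₁.Avoids e (π c₁) C₁ :=
    ⟨fun P hP => Finsupp.single_eq_of_ne fun h => hP (h ▸ ht), htZ,
      fun P hP _ hub => hc₁ ▸ hx₁' P (Finset.mem_union_left _ hP) hub⟩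
  have hav₀ : P₀.Avoids e (π c₀) C₀ :=
    ⟨fun P _ => rfl, le_rfl, fun P hP _ hub => hc₀ ▸ hx₀' P (Finset.mem_union_left _ hP) hub⟩
  set slope : Place k Fb → ℚ := fun P => (P.ord g₁ : ℚ) / P.ord U.ub
  set W : Place L F → ℚ := fun Q =>
    if U.theta V Q = U.w then -V.v d₂
    else if red hS Q ∈ U.nodes then -V.v d₁ + slope (red hS Q) * U.theta V Q else -V.v d₁
  set y : Place L F → L := fun _ => 1
  -- the common control
  have hsame : ∀ {Q : Place L F}, Q.ord f = 0 → ev Q f ≠ 0 →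
      OrdGE Q 0 f ∧ V.Near 0 (ev Q f) (y Q * ev Q f) := fun hf hne => by
    refine ⟨ordGE_of_le hf.ge, ?_⟩
    simp only [y, one_mul]
    exact V.near_refl hne
  have hclass : ∀ {Z : Divisor k Fb} (P : Probe S U H Z bad m) (Q : Place L F),
      InChart S Q →
      ((red hS Q ∈ P.zeros ∧ red hS Q ∈ U.nodes ∧ U.theta V Q < ρ ∧
          U.theta V Q * ((red hS Q).ord U.ub + e * Z (red hS Q) : ℤ) =
            U.w * (red hS Q).ord U.ub) ∨
      (red hS Q ∈ P.zeros ∧ red hS Q ∉ U.nodes ∧ U.theta V Q = 0 ∧ red hS Q ∉ bad) ∨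
      (red hS Q ∉ P.zeros ∧ U.theta V Q = U.w ∧ red (hS' hdeg) Q ∉ B₂v)) →
      (Q.ord f = 0 ∧ ev Q f ≠ 0 ∧ V.v (ev Q f) = W Q ∧ OrdGE Q 0 f ∧
        V.Near 0 (ev Q f) (y Q * ev Q f)) ∧
      (red hS Q ∈ P.zeros → y Q = 1 ∧
        ((red hS Q ∈ U.nodes ∧ U.theta V Q * ((red hS Q).ord U.ub + e * Z (red hS Q) : ℤ) =
            U.w * (red hS Q).ord U.ub ∧ W Q = -V.v d₁ + slope (red hS Q) * U.theta V Q) ∨
          (red hS Q ∉ U.nodes ∧ W Q = -V.v d₁))) ∧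
      (red hS Q ∉ P.zeros → y Q = 1 ∧ W Q = -V.v d₂) := by
    intro Z P Q hQ h
    rcases h with ⟨hz, hn, hθ, hθe⟩ | ⟨hz, hn, hθ, hb⟩ | ⟨hz, hθ, hb⟩
    · have hθ12 : U.theta V Q ≠ U.w :=
        ((U.theta_pos_of_node V hQ hS ((U.mem_nodes_iff (U.mem_nodes.1 hn).1).1 hn)).2).ne
      obtain ⟨h1, h2, h3⟩ := hρ' _ hn Q hQ rfl (hθ.trans_le (hρle _ hn))
      obtain ⟨h6, h7⟩ := hsame h1 h2
      have hW : W Q = -V.v d₁ + slope (red hS Q) * U.theta V Q := by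
        simp only [W, if_neg hθ12, if_pos hn]
      exact ⟨⟨h1, h2, h3.trans hW.symm, h6, h7⟩,
        fun _ => ⟨rfl, Or.inl ⟨hn, hθe, hW⟩⟩, fun h => absurd hz h⟩
    · have hθ12 : U.theta V Q ≠ U.w := by
        rw [hθ]; exact_mod_cast U.w_pos.ne
      obtain ⟨h1, h2, h3⟩ := hB₁ Q hQ hθ fun h => hb (Finset.mem_union_left _ h)
      obtain ⟨h6, h7⟩ := hsame h1 h2
      have hW : W Q = -V.v d₁ := by simp only [W, if_neg hθ12, if_neg hn]
      exact ⟨⟨h1, h2, by rw [hW]; linarith, h6, h7⟩,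
        fun _ => ⟨rfl, Or.inr ⟨hn, hW⟩⟩, fun h => absurd hz h⟩
    · have hθ' : U'.theta V Q = 0 := by
        rw [show U'.theta V Q = U.w - U.theta V Q from U.v_ev' V hQ, hθ, sub_self]
      obtain ⟨h1, h2, h3⟩ := hB₂v Q (hQ.swap hS hdeg) hθ' hb
      obtain ⟨h6, h7⟩ := hsame h1 h2
      have hW : W Q = -V.v d₂ := if_pos hθ
      exact ⟨⟨h1, h2, by rw [hW]; linarith, h6, h7⟩,
        fun h => absurd h hz, fun _ => ⟨rfl, hW⟩⟩
  have hall₁ : ∀ Q ∈ finZeros S (P₁.num e (c₁ : L)), _ := fun Q hQ =>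
    hclass P₁ Q (P₁.ord_pos he₁ hc₁0 V hS hQ).1 (hC₁ e (by omega) he₁ c₁ hc₁0 hav₁ Q hQ)
  have hall₀ : ∀ Q ∈ finZeros S (P₀.num e (c₀ : L)), _ := fun Q hQ =>
    hclass P₀ Q (P₀.ord_pos he₀ hc₀0 V hS hQ).1 (hC₀ e (by omega) he₀ c₀ hc₀0 hav₀ Q hQ)
  obtain ⟨hne₁, hv₁, -⟩ := P₁.num_prod V hS he₁ hc₁0 hav₁ slope le_rfl
    (fun Q hQ => (hall₁ Q hQ).1) (fun Q hQ => (hall₁ Q hQ).2.1) (fun Q hQ => (hall₁ Q hQ).2.2)
    one_ne_zero one_ne_zero {t} (t.ord U.ub)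
    (by
      ext P
      simp only [Finset.mem_singleton, Finset.mem_filter, Finsupp.single_apply]
      refine ⟨fun h => ⟨h ▸ ht, by rw [if_pos h.symm]; exact one_pos⟩, fun h => ?_⟩
      by_contra hP
      rw [if_neg (Ne.symm hP)] at h
      exact lt_irrefl _ h.2)
    (by rw [Finset.sum_singleton])
  obtain ⟨hne₀, hv₀, -⟩ := P₀.num_prod V hS he₀ hc₀0 hav₀ slope le_rfl
    (fun Q hQ => (hall₀ Q hQ).1) (fun Q hQ => (hall₀ Q hQ).2.1) (fun Q hQ => (hall₀ Q hQ).2.2)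
    one_ne_zero one_ne_zero ∅ 0 (by simp) (by simp)
  -- the quotient
  set N₁ := P₁.num e (c₁ : L)
  set N₀ := P₀.num e (c₀ : L)
  set Φ := N₁ / N₀ with hΦ
  have h₁0 : N₁ ≠ 0 := P₁.num_ne he₁ hc₁0 V hS
  have h₀0 : N₀ ≠ 0 := P₀.num_ne he₀ hc₀0 V hS
  have hcancel : ∀ Q : Place L F, Q.ord S.X < 0 → Q.ord N₁ = Q.ord N₀ := fun Q hQ => by
    rw [P₁.ord_num_pole he₁ hc₁0 V hQ, P₀.ord_num_pole he₀ hc₀0 V hQ]
  have hevne : ∀ Q ∈ finZeros S N₁ ∪ finZeros S N₀, Q.ord f = 0 ∧ ev Q f ≠ 0 := by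
    intro Q hQ
    rcases Finset.mem_union.1 hQ with h | h
    · exact ⟨(hall₁ Q h).1.1, (hall₁ Q h).1.2.1⟩
    · exact ⟨(hall₀ Q h).1.1, (hall₀ Q h).1.2.1⟩
  obtain ⟨hsupp, hR⟩ := prod_support_div h₁0 h₀0 hcancel (φ := f) fun Q hQ => (hevne Q hQ).2
  have hΦfix : ∀ σ ∈ H, σ • Φ = Φ := fun σ hσ => by
    rw [hΦ, smul_div₀', P₁.num_fix hσ (hu σ hσ) (hc₁H σ hσ), P₀.num_fix hσ (hu σ hσ) (hc₀H σ hσ)]
  have hΦT : Transcendental L Φ := by
    obtain ⟨htf', hto⟩ := U.mem_nodes.1 ht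
    have hsum := P₁.filter_red he₁ hc₁0 V hS (P := t) htf'
    rw [P₁.ord_nrm_node he₁ hc₁0 ht (hav₁.nonneg t), Finsupp.single_eq_same, if_neg one_ne_zero,
      mul_one] at hsum
    obtain ⟨Q, hQ, -⟩ := Finset.exists_ne_zero_of_sum_ne_zero
      (s := (finZeros S N₁).filter fun Q => red hS Q = t) (f := fun Q => Q.ord N₁)
      (by rw [hsum]; positivity)
    rw [Finset.mem_filter] at hQ
    obtain ⟨hchart, hpos, -, -⟩ := P₁.ord_pos he₁ hc₁0 V hS hQ.1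
    have h0 : Q.ord N₀ = 0 := by
      by_contra hne
      have hmem : Q ∈ finZeros S N₀ := mem_finZeros.2 ⟨hne, hchart.1⟩
      rcases hC₀ e (by omega) he₀ c₀ hc₀0 hav₀ Q hmem with ⟨hz, -⟩ | ⟨-, hn, -⟩ | ⟨-, hθ, -⟩
      · have := (P₀.mem_zeros.1 hz).2
        rw [hQ.2, P₀.node t ht] at this
        exact lt_irrefl _ this
      · exact hn (hQ.2 ▸ ht)
      · exact ((U.theta_pos_of_node V hchart hS
          (hQ.2 ▸ (U.mem_nodes_iff htf').1 ht)).2).ne hθ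
    refine transcendental_of_ord_ne (Q := Q) ?_
    rw [hΦ, ord_div Q h₁0 h₀0, h0, sub_zero]
    exact hpos.ne'
  have hΦ0 : Φ ≠ 0 := div_ne_zero h₁0 h₀0
  have hdisj : ∀ Q : Place L F, Q.ord Φ ≠ 0 → Q.ord f = 0 := fun Q hQ =>
    (hevne Q (hsupp Q (Finsupp.mem_support_iff.2 (by rwa [divOf_apply])))).1
  haveI : CharZero L := V.charZero
  have hrec := reciprocity hΦT hf0 hdisj
  have hordΦ : ∀ Q ∈ (divOf L f).support, Q.ord Φ = 0 := fun Q hQ => by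
    by_contra h
    rw [Finsupp.mem_support_iff, divOf_apply] at hQ
    exact hQ (hdisj Q h)
  set lam := ∏ Q ∈ (divOf L f).support, ev Q Φ ^ D Q with hlam
  have hlam0 : lam ≠ 0 :=
    Finset.prod_ne_zero_iff.2 fun Q hQ => zpow_ne_zero _ (ev_ne_zero_of_ord hΦ0 (hordΦ Q hQ))
  have hlamn : lam ^ n = ∏ Q ∈ (divOf L Φ).support, ev Q f ^ Q.ord Φ := by
    rw [hrec, hlam, ← Finset.prod_pow]
    exact Finset.prod_congr rfl fun Q _ => by rw [hD, ← zpow_natCast, ← zpow_mul, mul_comm]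
  -- the valuations of the values on the divisor of `f`
  set T := chart.filter fun Q => red hS Q = t
  have hev12 : ∀ Q ∈ supp, V.v (ev Q Φ) = if Q ∈ T then U.w - U.theta V Q else 0 := by
    intro Q hQ
    obtain ⟨k₁, -, k₂⟩ := heQ Q e (le_trans (Finset.le_sup hQ) (by omega)) c₁ hc₁0
    obtain ⟨-, k₀, -⟩ := heQ Q e (le_trans (Finset.le_sup hQ) (by omega)) c₀ hc₀0
    by_cases hch : InChart S Q
    · have hmem : Q ∈ chart := Finset.mem_filter.2 ⟨hQ, hch⟩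
      have hfin := red_finite hS hch
      have hbad : red hS Q ∈ bad :=
        Finset.mem_union_right _ (Finset.mem_image_of_mem _ hmem)
      have hC : red hS Q ∈ C₁ ∪ chart.image (red hS) ∧ red hS Q ∈ C₀ ∪ chart.image (red hS) :=
        ⟨Finset.mem_union_right _ (Finset.mem_image_of_mem _ hmem),
          Finset.mem_union_right _ (Finset.mem_image_of_mem _ hmem)⟩
      have hN : ∀ {Z : Divisor k Fb} (P : Probe S U H Z bad m) (c : A),
          OrdGE Q 0 (P.num e (c : L)) := fun P c =>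
        hch.ordGE (numFun_int U V hS P.int (fun v _ => ordGE_one v) e (c : L))
      have hdiv : ev Q N₁ ≠ 0 → ev Q N₀ ≠ 0 →
          V.v (ev Q Φ) = V.v (ev Q N₁) - V.v (ev Q N₀) := fun hn1 hn0 => by
        have ho0 := (ord_eq_zero_of_ev_ne (hN P₀ c₀) hn0).2
        have ho1 := (ord_eq_zero_of_ev_ne (hN P₁ c₁) hn1).2
        have hΦo : OrdGE Q 0 Φ :=
          ordGE_of_le (by rw [hΦ, ord_div Q h₁0 h₀0, ho1, ho0, sub_zero])
        have h2 : ev Q Φ * ev Q N₀ = ev Q N₁ := by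
          rw [← ev_mul Q hΦo (hN P₀ c₀), hΦ, div_mul_cancel₀ _ h₀0]
        rw [← h2, V.v_mul _ _ (left_ne_zero_of_mul (h2 ▸ hn1)) hn0]
        ring
      have hw : ∀ {Z : Divisor k Fb} (P : Probe S U H Z bad m), Z (red hS Q) = 0 →
          ev (red hS Q) P.w ≠ 0 := fun P hZ =>
        ev_ne_zero_of_ord P.w_ne ((P.avoid _ hbad hfin).trans hZ)
      by_cases hQt : red hS Q = t
      · have hθ : U.theta V Q < U.w := (U.theta_pos_of_node V hch hS
          ((U.mem_nodes_iff hfin).1 (hQt ▸ ht))).2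
        obtain ⟨hn1, hv1⟩ := k₂ hch hQt
        obtain ⟨hn0, hv0⟩ := v_num_of_ne V hS P₀ hc₀0 hch (hw P₀ rfl) hθ
        rw [if_pos (Finset.mem_filter.2 ⟨hmem, hQt⟩), hdiv hn1 hn0, hv1, hv0]
      · have hT : Q ∉ T := fun h => hQt (Finset.mem_filter.1 h).2
        rw [if_neg hT]
        have hw₁ := hw P₁ (Finsupp.single_eq_of_ne hQt)
        rcases (U.theta_le V hch).lt_or_eq with hθ | hθ
        · obtain ⟨hn1, hv1⟩ := v_num_of_ne V hS P₁ hc₁0 hch hw₁ hθ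
          obtain ⟨hn0, hv0⟩ := v_num_of_ne V hS P₀ hc₀0 hch (hw P₀ rfl) hθ
          rw [hdiv hn1 hn0, hv1, hv0, sub_self]
        · have hub : ev (red hS Q) U.ub ≠ 0 := fun h0 =>
            (U.theta_pos_of_node V hch hS h0).2.ne hθ
          obtain ⟨hn1, hv1⟩ := v_num_second V hS P₁ hc₁0 hch hθ (hc₁ ▸ hx₁' _ hC.1 hub)
          obtain ⟨hn0, hv0⟩ := v_num_second V hS P₀ hc₀0 hch hθ (hc₀ ▸ hx₀' _ hC.2 hub)
          rw [hdiv hn1 hn0, hv1, hv0, sub_self]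
    · obtain ⟨o1, n1, v1⟩ := k₁ hch
      obtain ⟨o0, n0, v0⟩ := k₀ hch
      have hT : Q ∉ T := fun h => hch (Finset.mem_filter.1 (Finset.mem_filter.1 h).1).2
      rw [if_neg hT]
      set den := U.u * S.X ^ (e * m)
      have hden : den ≠ 0 :=
        mul_ne_zero U.u_ne (pow_ne_zero _ (ne_zero_of_transcendental S.transcendental_X))
      have hΦo : OrdGE Q 0 Φ := ordGE_of_le (hordΦ Q hQ).ge
      have h2 : ev Q Φ * ev Q (N₀ / den) = ev Q (N₁ / den) := by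
        rw [← ev_mul Q hΦo (ordGE_of_le o0.ge), hΦ, div_mul_div_cancel₀ h₀0]
      have h3 := congrArg V.v h2
      rw [V.v_mul _ _ (ev_ne_zero_of_ord hΦ0 (hordΦ Q hQ)) n0, v0, v1, add_zero] at h3
      exact h3
  have hv' : V.v lam = ∑ Q ∈ T, (D Q : ℚ) * (U.w - U.theta V Q) := by
    rw [hlam, V.v_prod _ _ fun Q hQ => zpow_ne_zero _ (ev_ne_zero_of_ord hΦ0 (hordΦ Q hQ)),
      ← Finset.sum_filter_add_sum_filter_not (divOf L f).support (fun Q => Q ∈ T),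
      Finset.sum_eq_zero (s := (divOf L f).support.filter fun Q => ¬ Q ∈ T) (fun Q hQ => by
        obtain ⟨hQs, hQT⟩ := Finset.mem_filter.1 hQ
        rw [V.v_zpow (ev_ne_zero_of_ord hΦ0 (hordΦ Q hQs)), hev12 Q hQs, if_neg hQT, mul_zero]),
      add_zero,
      show (divOf L f).support.filter (fun Q => Q ∈ T) = T from by
        rw [Finset.filter_mem_eq_inter, Finset.inter_eq_right]
        exact fun Q hQ => (Finset.mem_filter.1 (Finset.mem_filter.1 hQ).1).1]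
    refine Finset.sum_congr rfl fun Q hQ => ?_
    have hQs : Q ∈ supp := (Finset.mem_filter.1 (Finset.mem_filter.1 hQ).1).1
    rw [V.v_zpow (ev_ne_zero_of_ord hΦ0 (hordΦ Q hQs)), hev12 Q hQs, if_pos hQ]
  rw [show (((divOf L f).support.filter fun Q => InChart S Q ∧ red hS Q = t)) = T from
    (Finset.filter_filter _ _ _).symm, ← hv']
  have h := congrArg V.v hlamn
  rw [V.v_pow hlam0, hR, V.v_div hne₁ hne₀, hv₁, hv₀, Finset.sum_singleton,
    Finset.sum_empty] at h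
  rw [h]
  have : (t.ord U.ub : ℚ) ≠ 0 := by exact_mod_cast (U.mem_nodes.1 ht).2.ne'
  simp only [slope]
  field_simp
  push_cast
  ring

end FLTAgent.ModLift.LowerAway
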