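import Fermat.Agent.ModLift.LowerAway.Pull
import Fermat.Agent.ModLift.LowerAway.Slope12
import Fermat.Agent.Lowering.P7.Residual

/-!
# The congruence for the first reduction of a translate by `T_r`

For `r ≡ 11 mod 12`, a translate by `T_r` of a fixed class, killed by the pushforward, has a
representative whose first reduction is congruent modulo `n` at the finite points to a divisor
proportional to that of `ub`. The auxiliary `r` makes `12` invertible for every `n` prime to `q`.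
-/

set_option autoImplicit false
set_option linter.style.haveILetI false
set_option linter.unusedSectionVars false
set_option synthInstance.maxHeartbeats 400000
set_option maxHeartbeats 2000000

noncomputable section

open AlgebraicCurve ModularCurve IsLocalRing

namespace FLTAgent.ModLift.LowerAway

open FLTAgent.Curves FLTAgent.Specialization FLTAgent.BadRed FLTAgent.MazurPrinciple
open FLTAgent.Lowering.P7 (RepR tN tN_ne_zero frobSym frobSym_V exists_V_eq exists_res_rel
  ord_dvd_off_nodes)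
open FLTAgent.Kronecker (heckeOperatorAlong_mk heckeDivBar_apply_of_ord)
open FLTAgent.EigenLattice (pushPic)

local notation "QA" => AlgebraicClosure ℚ
local notation "GG" => (AlgebraicClosure ℚ ≃ₐ[ℚ] AlgebraicClosure ℚ)

attribute [local instance 2000] Lowering.P7.fullCAlgebra Lowering.P7.laurentAlgebra
  Lowering.P7.x0BarAlgebra

variable {q : ℕ} [Fact q.Prime] [NeZero q] {M : ℕ} [NeZero M] [NeZero (M * q)] (hqM : ¬ q ∣ M)
  {A : ValuationSubring QA} [IsAlgClosed (ResidueField A)] [CharP (ResidueField A) q]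
  [Curves.IsFunctionField (ResidueField A) (modularFunctionFieldFullC (ResidueField A) M)]
  (hA : A.LiesOverPrime q)

local notation "kk" => ResidueField A
local notation "Jk" => modularFunctionFieldFullC (ResidueField A) M

variable {σ : GG} (hσ : A.IsFrobeniusAt σ q)

include hσ in
/-- Off the glued points the reduction of a class killed by the pushforward is divisible by `n`. -/
theorem repR_dvd_off_nodes (U : UnitData (sheetAt hqM hA)) {n : ℕ} (hqn : ¬ q ∣ n)
    {x : JZero (M * q)} (rx : RepR hqM hA n x)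
    (hα : pushPic M q (heckeAlphaBar QA M q) x = 0)
    {P : Place kk Jk} (hP : P ∉ U.nodes) : (n : ℤ) ∣ P.ord rx.g := by
  haveI := Specialization.instIsFunctionFieldX0Bar M
  haveI := Specialization.instIsFunctionFieldX0Bar (M * q)
  have hn0 : n ≠ 0 := fun h => hqn (h ▸ dvd_zero q)
  have hnk : (n : kk) ≠ 0 := fun h => hqn ((CharP.cast_eq_zero_iff kk q n).1 h)
  have hS := Lowering.P7.good hqM hA (smooth_any hqM hA)
  obtain ⟨d₂, g₂, hg₂, hr₂⟩ := (sheetAt hqM hA).scaled₂ rx.f rx.f_ne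
  obtain ⟨h, hh⟩ := exists_res_rel hqM hA hσ hnk rx.f_ne rx.D rx.ord_f
    (rx.mk_D.symm ▸ hα) rx.g_ne hg₂ rx.res hr₂
  have hd₁ : rx.d ≠ 0 := fun h0 => rx.res.ne_zero rx.g_ne (by rw [h0, zero_smul])
  have hd₂ : d₂ ≠ 0 := fun h0 => hr₂.ne_zero hg₂ (by rw [h0, zero_smul])
  have hσg : (frobSym hqM hA hσ).σb g₂ ≠ 0 := (map_ne_zero _).2 hg₂
  exact ord_dvd_off_nodes U (ratVal hA) hS (Nat.pos_of_ne_zero hn0) rx.f_ne
    (rx.D : Divisor QA (X0Bar (M * q))) rx.ord_f hd₁ hd₂ rx.g_ne hg₂ rx.res hr₂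
    (exists_V_eq hqM hA hσ) (frobSym_V hqM hA hσ g₂) (fun P => by
      rw [← P.ord_mul rx.g_ne hσg, hh, Curves.ord_pow]
      exact dvd_mul_right _ _) hP

include hσ in
/-- **The congruence** for a translate by `T_r`, `r ≡ 11 mod 12`. -/
theorem exists_congr_translate {r : ℕ} [Fact r.Prime] [NeZero r] (hr : r % 12 = 11)
    (hrq : r ≠ q) (U : UnitData (sheetAt hqM hA))
    (hu : (U.u : LaurentSeries QA) = unitSer QA q) {n : ℕ} (hqn : ¬ q ∣ n)
    {x : JZero (M * q)} (hnx : n • x = 0) (hfix : ∀ τ ∈ A.inertiaSubgroupIn ℚ, τ • x = x)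
    (hαT : pushPic M q (heckeAlphaBar QA M q) (heckeOperatorAlong QA (M * q) r x) = 0) :
    ∃ (rT : RepR hqM hA n (heckeOperatorAlong QA (M * q) r x)) (ν : Divisor kk Jk) (a b : ℤ),
      b ≠ 0 ∧ (∀ P, P.ord (sheetAt hqM hA).MC.xb < 0 → ν P = 0) ∧
      (∀ P, 0 ≤ P.ord (sheetAt hqM hA).MC.xb → b * ν P = a * P.ord U.ub) ∧
      (∀ P, 0 ≤ P.ord (sheetAt hqM hA).MC.xb → (n : ℤ) ∣ P.ord rT.g - ν P) := by
  classical
  haveI := Specialization.instIsFunctionFieldX0Bar M
  haveI := Specialization.instIsFunctionFieldX0Bar (M * q)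
  haveI : NeZero (M * r) := ⟨mul_ne_zero (NeZero.ne M) (NeZero.ne r)⟩
  haveI : NeZero (M * r * q) := ⟨mul_ne_zero (NeZero.ne (M * r)) (NeZero.ne q)⟩
  haveI : NeZero (M * q * r) := ⟨mul_ne_zero (NeZero.ne (M * q)) (NeZero.ne r)⟩
  have hqMr : ¬ q ∣ M * r := fun h => ((Fact.out : q.Prime).dvd_mul.1 h).elim hqM fun h' =>
    hrq ((Nat.prime_dvd_prime_iff_eq Fact.out Fact.out).1 h').symm
  haveI := isFunctionField_full (ResidueField A) (M * r) rfl (BadRed.natCast_ne_zero hqMr kk)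
  haveI : HasPrincipalDivisors QA (modularFunctionFieldBar (M * q * r)) :=
    FLTAgent.Curves.hasPrincipalDivisors
  have hn0 : n ≠ 0 := fun h => hqn (h ▸ dvd_zero q)
  have hsm := smooth_any hqM hA
  have hS := Lowering.P7.good hqM hA hsm
  have hS' : ∀ h, ((sheetAt hqM hA).swap h).Good := fun h => Lowering.P7.swap_good hqM hA hsm h
  set V := ratVal hA
  have hαr : HeckeAlphaBarIntegral QA (M * q) r := Kronecker.isIntegralAlong _
  have hβr : HeckeBetaBarIntegral QA (M * q) r := Kronecker.isIntegralAlong _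
  obtain ⟨f, D, hf, hD, rfl, hffix⟩ :=
    exists_fixed_rep hn0 (G := (A.inertiaSubgroupIn ℚ : Set GG)) hnx hfix
  obtain ⟨hmem, hmk⟩ := heckeOperatorAlong_mk (M * q) r hαr hβr D
  set DT := heckeDivBar hαr hβr (D : Divisor QA (X0Bar (M * q)))
  have hfT0 : tN (M * q) r f ≠ 0 := tN_ne_zero hf
  have hordT : ∀ v, v.ord (tN (M * q) r f) = (n : ℤ) * DT v := fun v => by
    have hE : ((n : ℤ) • (D : Divisor QA (X0Bar (M * q)))) = divOf QA f :=
      Finsupp.ext fun P => by rw [Finsupp.smul_apply, Curves.divOf_apply, hD, smul_eq_mul]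
    have h1 := heckeDivBar_apply_of_ord hαr hβr hf (E := divOf QA f)
      (fun P => Curves.divOf_apply _ P) v
    rw [← hE, map_zsmul, Finsupp.smul_apply, smul_eq_mul] at h1
    exact h1.symm
  obtain ⟨d₁, g₁, hg₁, hr₁⟩ := (sheetAt hqM hA).scaled₁ _ hfT0
  obtain ⟨d₂, g₂, hg₂, hr₂⟩ := (sheetAt hqM hA).scaled₂ _ hfT0
  let rT : RepR hqM hA n (heckeOperatorAlong QA (M * q) r (Pic0.mk D)) :=
    ⟨tN (M * q) r f, ⟨DT, hmem⟩, d₁, g₁, hfT0, hordT, hmk.symm, hg₁, hr₁⟩
  set Δ : ℚ := V.v d₂ - V.v d₁ with hΔ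
  have hsupp : (divOf QA (tN (M * q) r f)).support = DT.support := by
    ext v
    rw [Finsupp.mem_support_iff, Finsupp.mem_support_iff, Curves.divOf_apply, hordT]
    exact mul_ne_zero_iff_left (Int.natCast_ne_zero.2 hn0)
  have hnode : ∀ t ∈ U.nodes, ∃ j : ℤ, (t.ord U.ub : ℚ) * Δ = 12 * ((n * j - t.ord g₁ : ℤ) : ℚ) := by
    intro t ht
    obtain ⟨z, hz⟩ := sum_theta_dvd hqM hqMr hA hαr hβr hr U hu hS ht hn0 hf hffix
      (D : Divisor QA (X0Bar (M * q))) hD
    have h := slope_value (U := U) (H := inertiaSet A (M * q)) V hS (finrankAlong_beta hqM) hS'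
      (liftsInvariant_of_smooth hqM hA hsm) (exists_liftc hA _)
      (fun τ hτ => smul_unitSer hu hτ) hfT0 DT hordT hg₁ hg₂ hr₁ hr₂ ht
    rw [hsupp, w_eq_twelve hqM residue_surjective (rankOne_residue hA) V U hu] at h
    refine ⟨(∑ Q ∈ DT.support.filter fun Q => InChart (sheetAt hqM hA) Q ∧ red hS Q = t, DT Q) - z, ?_⟩
    simp only [mul_sub, Finset.sum_sub_distrib] at h
    rw [hz] at h
    rw [hΔ]
    push_cast at h ⊢
    rw [← Finset.sum_mul] at h
    linear_combination -h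
  choose! j hj using hnode
  set ν : Divisor kk Jk := ∑ t ∈ U.nodes, Finsupp.single t (t.ord g₁ - (n : ℤ) * j t) with hν
  have hνP : ∀ P, ν P = if P ∈ U.nodes then P.ord g₁ - (n : ℤ) * j P else 0 := fun P => by
    rw [hν, Finsupp.finsetSum_apply]
    simp only [Finsupp.single_apply]
    rw [Finset.sum_ite_eq']
  refine ⟨rT, ν, -Δ.num, 12 * Δ.den, mul_ne_zero (by norm_num) (Int.natCast_ne_zero.2 Δ.den_ne_zero),
    fun P hP => ?_, fun P hP => ?_, fun P hP => ?_⟩
  · rw [hνP, if_neg fun h => (not_lt.2 (U.mem_nodes.1 h).1) hP]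
  · rw [hνP]
    split_ifs with hn
    · have h := hj P hn
      have hnd : (Δ.num : ℚ) = Δ * Δ.den := (Rat.mul_den_eq_num Δ).symm
      have hq : ((12 * (Δ.den : ℤ) * (P.ord g₁ - (n : ℤ) * j P) : ℤ) : ℚ) =
          ((-Δ.num * P.ord U.ub : ℤ) : ℚ) := by
        push_cast at h ⊢
        rw [hnd]
        linear_combination (Δ.den : ℚ) * h
      exact_mod_cast hq
    · have h1 := (U.ub_reg P hP).le_ord U.ub_ne
      have h2 : P.ord U.ub = 0 := by
        by_contra hne
        exact hn (U.mem_nodes.2 ⟨hP, lt_of_le_of_ne h1 (Ne.symm hne)⟩)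
      rw [h2, mul_zero, mul_zero]
  · rw [hνP]
    split_ifs with hn
    · show (n : ℤ) ∣ P.ord g₁ - _
      exact ⟨j P, by ring⟩
    · rw [sub_zero]
      exact repR_dvd_off_nodes hqM hA hσ U hqn rT hαT hn

end FLTAgent.ModLift.LowerAway
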