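import Fermat.Agent.ModLift.LowerAway.Glue
import Fermat.Agent.ModLift.LowerAway.Smooth
import Fermat.Agent.MazurPrinciple.NodeMult
import Fermat.Agent.Entry.Surj.Count
import Fermat.Agent.Entry.Surj.Bound
import Fermat.Agent.X0Fn.Genus
import Fermat.Agent.GoodModel.Cusps

/-!
# Without elliptic points every glued point has multiplicity twelve in `ub`

The number of glued points is the drop of the genus, `(q - 1) ψ(M) / 12`, and the degree of the
finite zeros of `ub` is `(q - 1) ψ(M)`.
-/

set_option autoImplicit false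
set_option linter.style.haveILetI false
set_option linter.unusedSectionVars false
set_option synthInstance.maxHeartbeats 400000
set_option maxHeartbeats 1000000

noncomputable section

open AlgebraicCurve ModularCurve IsLocalRing Polynomial IntermediateField

namespace FLTAgent.ModLift.LowerAway

open FLTAgent.Curves FLTAgent.Specialization FLTAgent.BadRed FLTAgent.MazurPrinciple

local notation "QA" => AlgebraicClosure ℚ

section General

variable {K F : Type*} [Field K] [Field F] [Algebra K F] [IsAlgClosed K] [IsFunctionField K F]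
  [CharZero K] [CharZero F]

/-- The genus of differentials is the genus of Riemann's theorem. -/
theorem genus_eq_rGenus [HasCanonicalDivisor (K := K) (F := F)] :
    (genus K F : ℤ) = rGenus K F := by
  classical
  obtain ⟨x, hx, -⟩ := IsFunctionField.exists_transcendental (K := K) (F := F)
  obtain ⟨h1, -⟩ := genus_spec hx
  haveI := isSeparable_adjoin_charZero hx
  obtain ⟨B⟩ := nonempty_reducedBasis (K := K) hx
  rw [degree_ram_of_tame hx (ramIdx_cast_ne_zero hx) B (ramDiv_apply hx)] at h1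
  haveI := finiteDimensional_adjoin (K := K) hx
  have hn : 0 < Module.finrank K⟮x⟯ F := Module.finrank_pos
  set m : ℤ := ((Finset.univ.sup B.k : ℕ) : ℤ) + (rBound K F).toNat
  have hmk : ∀ i, (B.k i : ℤ) ≤ m := fun i => by
    have := Finset.le_sup (f := B.k) (Finset.mem_univ i)
    omega
  have hm0 : 0 ≤ m := by positivity
  have h2 := finrank_rrSpace_poles_of_le B hx hmk
  have h3 : ell (m • poleDiv K x) = Divisor.degree (m • poleDiv K x) + 1 - rGenus K F := by
    refine ell_eq ?_
    rw [map_zsmul, degree_poleDiv hx, smul_eq_mul]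
    have h4 := Int.self_le_toNat (rBound K F)
    have h5 : m ≤ m * (Module.finrank K⟮x⟯ F : ℤ) := le_mul_of_one_le_right hm0 (by exact_mod_cast hn)
    have h6 : (0 : ℤ) ≤ (Finset.univ.sup B.k : ℕ) := Int.natCast_nonneg _
    omega
  rw [ell, h2, map_zsmul, degree_poleDiv hx, smul_eq_mul] at h3
  linarith

end General

/-- The genus of `X₀(N)`. -/
theorem rGenus_formula (N : ℕ) [NeZero N] :
    (rGenus QA (X0Bar N) : ℚ) = genusFormula N := by
  haveI : Algebra.IsAlgebraic ℚ QA := AlgebraicClosure.isAlgebraic ℚ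
  let κ : QA →+* ℂ := (IsAlgClosed.lift : QA →ₐ[ℚ] ℂ).toRingHom
  haveI : IsFunctionField QA (X0Fn.XF QA N) := (X0Fn.isFunctionField_and_finrank κ).1
  haveI : CharZero (X0Fn.XF QA N) :=
    charZero_of_injective_algebraMap (algebraMap QA (X0Fn.XF QA N)).injective
  haveI := hasCanonicalDivisor (K := QA) (F := X0Fn.XF QA N)
  have h := X0Fn.genus_count (K := QA) (N := N) κ
  have h1 := genus_eq_rGenus (K := QA) (F := X0Fn.XF QA N)
  show ((rGenus QA (X0Fn.XF QA N) : ℤ) : ℚ) = _
  rw [← h, ← h1]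
  norm_cast

/-- The cusps double with a new prime. -/
theorem cuspCount_mul_prime {M q : ℕ} [NeZero M] (hq : q.Prime) (hqM : ¬ q ∣ M) :
    cuspCount (M * q) = 2 * cuspCount M := by
  classical
  have hM := NeZero.ne M
  have hco : ∀ d, d ∣ M → Nat.Coprime d q := fun d hd =>
    ((Nat.Prime.coprime_iff_not_dvd hq).2 fun h => hqM (h.trans hd)).symm
  have hdiv : (M * q).divisors = M.divisors ∪ M.divisors.image (· * q) := by
    ext d
    simp only [Finset.mem_union, Finset.mem_image, Nat.mem_divisors]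
    constructor
    · rintro ⟨hd, -⟩
      by_cases h : q ∣ d
      · obtain ⟨e, rfl⟩ := h
        refine Or.inr ⟨e, ⟨?_, hM⟩, mul_comm _ _⟩
        rw [mul_comm M q] at hd
        exact (Nat.mul_dvd_mul_iff_left hq.pos).1 hd
      · exact Or.inl ⟨((Nat.Prime.coprime_iff_not_dvd hq).2 h).symm.dvd_of_dvd_mul_right hd, hM⟩
    · rintro (⟨hd, -⟩ | ⟨e, ⟨he, -⟩, rfl⟩)
      · exact ⟨hd.trans (dvd_mul_right _ _), mul_ne_zero hM hq.ne_zero⟩
      · exact ⟨mul_dvd_mul_right he q, mul_ne_zero hM hq.ne_zero⟩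
  have hdisj : Disjoint M.divisors (M.divisors.image (· * q)) := Finset.disjoint_left.2 fun d h1 h2 => by
    obtain ⟨e, -, rfl⟩ := Finset.mem_image.1 h2
    exact hqM ((dvd_mul_left q e).trans (Nat.mem_divisors.1 h1).1)
  rw [cuspCount, hdiv, Finset.sum_union hdisj,
    Finset.sum_image fun a _ b _ h => Nat.eq_of_mul_eq_mul_right hq.pos h, cuspCount, two_mul]
  refine congrArg₂ (· + ·) (Finset.sum_congr rfl fun d hd => ?_) (Finset.sum_congr rfl fun d hd => ?_)
  · have hd' := (Nat.mem_divisors.1 hd).1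
    rw [Nat.mul_div_right_comm hd', Nat.Coprime.gcd_mul_right_cancel_right _ (hco d hd').symm]
  · have hd' := (Nat.mem_divisors.1 hd).1
    rw [Nat.mul_div_mul_right _ _ hq.pos, Nat.Coprime.gcd_mul_right_cancel _
      (hco _ (Nat.div_dvd_of_dvd hd')).symm]

/-- No elliptic points. -/
theorem nu_eq_zero {N r : ℕ} [NeZero N] [Fact r.Prime] (hrN : r ∣ N) (hr : r % 12 = 11) :
    nuTwo N = 0 ∧ nuThree N = 0 := by
  have h4 : r % 4 = 3 := by omega
  have h3 : r % 3 = 2 := by omega
  constructor
  · refine Nat.card_eq_zero.2 (Or.inl ⟨fun ⟨x, hx⟩ => ?_⟩)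
    set y := ZMod.castHom hrN (ZMod r) x
    have hy : y ^ 2 = -1 := by
      have h := congrArg (ZMod.castHom hrN (ZMod r)) hx
      rw [map_add, map_pow, map_one, map_zero] at h
      exact eq_neg_of_add_eq_zero_left h
    exact ZMod.mod_four_ne_three_of_sq_eq_neg_one hy h4
  · refine Nat.card_eq_zero.2 (Or.inl ⟨fun ⟨x, hx⟩ => ?_⟩)
    set y := ZMod.castHom hrN (ZMod r) x
    have hy : y ^ 2 + y + 1 = 0 := by
      have h := congrArg (ZMod.castHom hrN (ZMod r)) hx
      rwa [map_add, map_add, map_pow, map_one, map_zero] at h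
    have hy3 : y ^ 3 = 1 := by linear_combination (y - 1) * hy
    have hy0 : y ≠ 0 := fun h => by simp [h] at hy3
    have hfl := ZMod.pow_card_sub_one_eq_one hy0
    have hy1 : y = 1 := by
      have e : y ^ (r - 1) = y := by
        rw [← Nat.div_add_mod (r - 1) 3, pow_add, pow_mul, hy3, one_pow, one_mul,
          show (r - 1) % 3 = 1 by omega, pow_one]
      rw [← e, hfl]
    rw [hy1] at hy
    have h30 : ((3 : ℕ) : ZMod r) = 0 := by push_cast; linear_combination hy
    have := (Nat.prime_dvd_prime_iff_eq Fact.out Nat.prime_three).1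
      ((ZMod.natCast_eq_zero_iff 3 r).1 h30)
    omega

section Level

variable {q : ℕ} [Fact q.Prime] [NeZero q] {M : ℕ} [NeZero M] [NeZero (M * q)] (hqM : ¬ q ∣ M)
  {A : ValuationSubring QA} [IsAlgClosed (ResidueField A)] [CharP (ResidueField A) q]
  [Curves.IsFunctionField (ResidueField A) (modularFunctionFieldFullC (ResidueField A) M)]
  (hA : A.LiesOverPrime q)

local notation "kk" => ResidueField A

include hA in
/-- The finite zeros of `ub` have degree `(q - 1) ψ(M)`. -/
theorem sum_ord_ub (U : UnitData (sheetAt hqM hA))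
    (hub : (U.ub : LaurentSeries kk) = unitSer kk q) :
    ∑ t ∈ U.nodes, t.ord U.ub = ((q - 1 : ℕ) : ℤ) * dedekindPsi M := by
  classical
  obtain ⟨G, hGdeg, hser⟩ := exists_unit_poly (p := q) (π := residue A) residue_surjective
    (rankOne_residue hA)
  have hG0 : G ≠ 0 := fun h => unitSer_ne_zero (R := kk) q (by rw [← hser, h, map_zero])
  have hxb : ((sheetAt hqM hA).MC.xb : LaurentSeries kk) = jqModC kk := rfl
  have heq : U.ub = aeval (sheetAt hqM hA).MC.xb G := Subtype.ext (by rw [hub, ← hser, coe_aeval, hxb])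
  have hsupp : (divOf kk U.ub).support ⊆ U.nodes ∪ polesOf (K := kk) (sheetAt hqM hA).MC.xb := fun P hP => by
    rw [Finsupp.mem_support_iff, divOf_apply] at hP
    rw [Finset.mem_union]
    by_cases h0 : 0 ≤ P.ord (sheetAt hqM hA).MC.xb
    · have h1 := (U.ub_reg P h0).le_ord U.ub_ne
      exact Or.inl (U.mem_nodes.2 ⟨h0, lt_of_le_of_ne h1 (Ne.symm hP)⟩)
    · exact Or.inr (mem_polesOf.2 (not_le.1 h0))
  have h := degree_divOf (K := kk) U.ub
  rw [degree_eq_sum hsupp, Finset.sum_union (Finset.disjoint_left.2 fun P h1 h2 => by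
    have := (U.mem_nodes.1 h1).1
    have := mem_polesOf.1 h2
    omega)] at h
  simp only [divOf_apply] at h
  have hpol : ∀ P ∈ polesOf (K := kk) (sheetAt hqM hA).MC.xb, P.ord U.ub = (G.natDegree : ℤ) * P.ord (sheetAt hqM hA).MC.xb :=
    fun P hP => by rw [heq, (ord_aeval_of_neg (mem_polesOf.1 hP) hG0).1]
  rw [Finset.sum_congr rfl hpol, ← Finset.mul_sum, sum_ord_poles,
    degree_poleDiv (sheetAt hqM hA).MC.transcendental] at h
  have hdeg : Module.finrank kk⟮(sheetAt hqM hA).MC.xb⟯ (modularFunctionFieldFullC kk M) = dedekindPsi M :=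
    GoodModel.finrank_adjoin_jbarEl (BadRed.natCast_ne_zero hqM kk)
  rw [hdeg, hGdeg] at h
  linarith

include hA in
/-- **The number of glued points.** -/
theorem twelve_nodes {r : ℕ} [Fact r.Prime] (hrM : r ∣ M) (hr : r % 12 = 11)
    (N : (sheetAt hqM hA).Nodes) : 12 * (N.n : ℤ) = ((q - 1 : ℕ) : ℤ) * dedekindPsi M := by
  haveI := Specialization.instIsFunctionFieldX0Bar M
  haveI := Specialization.instIsFunctionFieldX0Bar (M * q)
  have hsm := smooth_any hqM hA
  have hS := Lowering.P7.good hqM hA hsm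
  have h := Entry.Surj.nodes_count hS N
  rw [hsm.rGenus_eq] at h
  have h1 := rGenus_formula (M * q)
  have h2 := rGenus_formula M
  obtain ⟨e2, e3⟩ := nu_eq_zero hrM hr
  obtain ⟨f2, f3⟩ := nu_eq_zero (N := M * q) (hrM.trans (dvd_mul_right _ _)) hr
  rw [genusFormula, f2, f3, cuspCount_mul_prime Fact.out hqM,
    ModEq.dedekindPsi_mul_prime_of_not_dvd Fact.out hqM] at h1
  rw [genusFormula, e2, e3] at h2
  have hQ : ((12 * (N.n : ℤ) : ℤ) : ℚ) = ((((q - 1 : ℕ) : ℤ) * dedekindPsi M : ℤ) : ℚ) := by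
    have h' := congrArg (fun z : ℤ => (z : ℚ)) h
    simp only [Int.cast_sub, Int.cast_mul, Int.cast_natCast, Int.cast_one, Int.cast_ofNat] at h'
    push_cast [Nat.cast_sub (Fact.out : q.Prime).one_le] at h1 h2 ⊢
    linear_combination 12 * h' + 12 * h1 - 24 * h2
  exact_mod_cast hQ

end Level

end FLTAgent.ModLift.LowerAway
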