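import Fermat.Agent.MazurPrinciple.Node
import Fermat.Agent.MazurPrinciple.PowerDiv
import Fermat.Agent.MazurPrinciple.Probe

/-!
# Values at the points over a glued point

Every glued point is a point of the fibre product, a function integral on both sheets takes at
the points over it the value of either reduction, and a function vanishing on the second sheet
bounds the multiplicity of the measuring function.
-/

set_option autoImplicit false
set_option linter.style.haveILetI false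
set_option linter.unusedSectionVars false
set_option maxHeartbeats 1000000

noncomputable section

namespace FLTAgent.ModLift.LowerAway

open AlgebraicCurve FLTAgent.Curves FLTAgent.Specialization FLTAgent.BadRed FLTAgent.MazurPrinciple

variable {L k : Type*} [Field L] [Field k] {A : ValuationSubring L} {π : A →+* k}
  {FC Fb F : Type*} [Field FC] [Field Fb] [Field F] [Algebra L FC]
  [Algebra k Fb] [Algebra L F] [IsAlgClosed L] [IsFunctionField L FC] [IsFunctionField L F]
  [IsAlgClosed k] [IsFunctionField k Fb] {q : ℕ} [Fact q.Prime] [CharP k q] {S : Sheet π FC Fb F q}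
  (U : UnitData S) (V : RatVal π q) (hS : S.Good) (N : S.Nodes)

omit [Fact q.Prime] [CharP k q] in
/-- The two reductions of an integral function agree at the glued points. -/
theorem compat_of_int {Z : F} (hZ : IntegralWrt L S.X Z) {a b : Fb}
    (h1 : S.R₁.Res Z a) (h2 : S.R₂.Res Z b) (i : Fin N.n) : N.s i a = N.s i (S.V b) := by
  obtain ⟨m, hm⟩ := exists_mem_poles hZ
  exact N.compat m (a, b) (LRed.mem_image_of_res hm ⟨h1, by rw [one_smul]; exact h2⟩) i

omit [Fact q.Prime] [CharP k q] in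
/-- The reductions of an integral function are regular. -/
theorem regular_of_int {Z : F} (hZ : IntegralWrt L S.X Z) {a b : Fb}
    (h1 : S.R₁.Res Z a) (h2 : S.R₂.Res Z b) :
    IntegralWrt k S.MC.xb a ∧ IntegralWrt k S.MC.xb b :=
  S.integralWrt_res hZ (show (S.pair 1).Res Z (a, b) from ⟨h1, by rw [one_smul]; exact h2⟩)

include U V in
/-- A function vanishing on the second sheet to depth `-v d` bounds the order of `ub`. -/
theorem ub_ord_le {Z : F} (hZ : IntegralWrt L S.X Z) {a : Fb} (ha : a ≠ 0)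
    (h1 : S.R₁.Res Z a) {d : L} (hd : d ≠ 0) (h2 : d • Z ∈ S.R₂.O) {l : ℕ}
    (hl : U.w ≤ (l : ℚ) * -V.v d) {t : Place k Fb} (ht : t ∈ U.nodes) :
    t.ord U.ub ≤ (l : ℤ) * t.ord a := by
  have hp0 : ((q : L) ^ U.w) ≠ 0 := pow_ne_zero _ V.p_ne
  set c : L := ((q : L) ^ U.w * d ^ l)⁻¹
  have hc : c ∈ A := by
    rw [V.mem_iff _ (inv_ne_zero (mul_ne_zero hp0 (pow_ne_zero _ hd))),
      V.v_inv (mul_ne_zero hp0 (pow_ne_zero _ hd)), V.v_mul _ _ hp0 (pow_ne_zero _ hd),
      V.v_pow V.p_ne, V.v_p, V.v_pow hd]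
    push_cast
    linarith
  set Z' : F := Z ^ l * (((q : L) ^ U.w)⁻¹ • U.u') with hZ'
  have hint : IntegralWrt L S.X Z' := by
    rw [hZ', Algebra.smul_def]
    exact integralWrt_mul (integralWrt_pow hZ l)
      (integralWrt_mul (integralWrt_algebraMap _ _) U.u'_int)
  have hinv : ((q : L) ^ U.w)⁻¹ • U.u' = U.u⁻¹ := by
    rw [Algebra.smul_def, map_inv₀, ← U.mul_eq, mul_inv, mul_assoc, inv_mul_cancel₀ U.u'_ne,
      mul_one]
  have e1 : S.R₁.Res Z' (a ^ l * U.ub⁻¹) := by
    rw [hZ', hinv]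
    exact (h1.pow l).mul (U.u_res.inv U.ub_ne)
  have e2 : Z' ∈ S.R₂.O := by
    have e : Z' = c • ((d • Z) ^ l * U.u') := by
      rw [hZ', _root_.smul_pow, smul_mul_assoc, smul_smul, mul_smul_comm,
        show c * d ^ l = ((q : L) ^ U.w)⁻¹ by
          simp only [c, mul_inv, mul_assoc, inv_mul_cancel₀ (pow_ne_zero _ hd), mul_one]]
    rw [e]
    exact smul_mem_O hc (mul_mem (pow_mem h2 l) U.u'_res.mem)
  obtain ⟨b, hb⟩ := S.R₂.exists_res_of_mem e2
  have hreg := (regular_of_int hint e1 hb).1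
  obtain ⟨ht1, -⟩ := U.mem_nodes.1 ht
  have h := (hreg t ht1).le_ord (mul_ne_zero (pow_ne_zero _ ha) (inv_ne_zero U.ub_ne))
  rw [t.ord_mul (pow_ne_zero _ ha) (inv_ne_zero U.ub_ne), Curves.ord_pow, t.ord_inv] at h
  linarith

include hS in
/-- A regular function with prescribed behaviour on a finite set. -/
theorem exists_regular_prescribed (Z : Divisor k Fb) (hZ : 0 ≤ Z) (s : Finset (Place k Fb))
    (hs : ∀ P ∈ s, 0 ≤ P.ord S.MC.xb) :
    ∃ (ψ : FC) (w : Fb), IntegralWrt L S.MC.x ψ ∧ S.MC.Res ψ w ∧ w ≠ 0 ∧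
      IntegralWrt k S.MC.xb w ∧
      (∀ P, 0 ≤ P.ord S.MC.xb → Z P ≤ P.ord w) ∧ ∀ P ∈ s, P.ord w = Z P := by
  obtain ⟨ψ, w, hψ, hw, hw0, -, hwP, hws⟩ := exists_clear hS 0 le_rfl Z hZ s hs
  refine ⟨ψ, w, hψ, hw, hw0, S.MC.integralWrt_res hψ hw, fun P hP => ?_, fun P hP => ?_⟩
  · simpa using hwP P hP
  · simpa using hws P hP

include hS in
/-- A regular function vanishing at every point of the fibre product lifts with zero second
reduction. -/
theorem exists_lift_pair {a : Fb} (ha : IntegralWrt k S.MC.xb a) (h0 : ∀ i, N.s i a = 0) :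
    ∃ Z : F, IntegralWrt L S.X Z ∧ (S.pair 1).Res Z (a, 0) := by
  obtain ⟨m₁, hm₁⟩ := exists_mem_poles ha
  set m := max m₁ N.m₀
  have hmem : (a, (0 : Fb)) ∈ S.targ m :=
    ⟨poles_mono (le_max_left _ _) hm₁, zero_mem _⟩
  have h := N.char m (le_max_right _ _) (a, 0) hmem fun i => by
    rw [h0, map_zero, map_zero]
  obtain ⟨Z, hZ, hres⟩ := (LRed.mem_image S.MC.surj).1 h
  exact ⟨Z, (mem_rrSpace_poles.1 hZ).1, hres⟩

include U V hS in
/-- Every glued point is a point of the fibre product. -/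
theorem exists_point_eq {t : Place k Fb} (ht : t ∈ U.nodes) : ∃ i, point N i = t := by
  classical
  by_contra hne
  push Not at hne
  set T : Finset (Place k Fb) := Finset.univ.image (point N)
  have htT : t ∉ T := fun h => by
    obtain ⟨i, -, hi⟩ := Finset.mem_image.1 h
    exact hne i hi
  have ht1 := (U.mem_nodes.1 ht).1
  obtain ⟨-, w, -, -, hw0, hwint, hwP, hws⟩ := exists_regular_prescribed hS
    (∑ P ∈ T, Finsupp.single P 1)
    (Finset.sum_nonneg fun _ _ => Finsupp.single_nonneg.2 zero_le_one) {t} (by simpa using ht1)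
  have hwt : t.ord w = 0 := by
    rw [hws t (Finset.mem_singleton_self t), Finsupp.finsetSum_apply]
    refine Finset.sum_eq_zero fun P hP => Finsupp.single_eq_of_ne fun h => htT (h ▸ hP)
  have hwv : ∀ i, N.s i w = 0 := fun i => by
    have hP := point_finite N i
    have h1 := hwP _ hP
    rw [Finsupp.finsetSum_apply, Finset.sum_eq_single (point N i)
      (fun P _ hne => Finsupp.single_eq_of_ne hne.symm)
      (fun h => absurd (Finset.mem_image_of_mem _ (Finset.mem_univ i)) h),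
      Finsupp.single_eq_same] at h1
    rw [point_spec N hwint, ev_eq_zero_iff _ (hwint _ hP)]
    exact ordGE_of_le h1
  obtain ⟨Z, hZ, h1, h2⟩ := exists_lift_pair hS N hwint hwv
  rw [one_smul] at h2
  have hZ0 : Z ≠ 0 := h1.ne_zero hw0
  obtain ⟨d, g, hg, hd⟩ := S.scaled₂ Z hZ0
  have hd0 : d ≠ 0 := by
    rintro rfl
    rw [zero_smul] at hd
    exact hg (hd.unique S.R₂.res_zero)
  have hdA : d ∉ A := fun h => hg (hd.unique (by
    have := h2.smul ⟨d, h⟩
    rwa [smul_zero] at this))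
  have hv : 0 < -V.v d := by
    rw [neg_pos]
    by_contra hle
    exact hdA ((V.mem_iff _ hd0).2 (not_lt.1 hle))
  obtain ⟨l, hl⟩ := exists_nat_ge (U.w / -V.v d)
  have h := ub_ord_le U V hZ hw0 h1 hd0 hd.mem (l := l) ((div_le_iff₀ hv).1 hl) ht
  rw [hwt, mul_zero] at h
  exact absurd (U.mem_nodes.1 ht).2 (not_lt.2 h)

include U V hS in
/-- The glued points are the points of the fibre product. -/
theorem nodes_card : U.nodes.card = N.n := by
  classical
  have h : U.nodes = Finset.univ.image (point N) := by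
    refine Finset.Subset.antisymm (fun t ht => ?_) (fun t ht => ?_)
    · obtain ⟨i, rfl⟩ := exists_point_eq U V hS N ht
      exact Finset.mem_image_of_mem _ (Finset.mem_univ i)
    · obtain ⟨i, -, rfl⟩ := Finset.mem_image.1 ht
      exact point_mem_nodes N U V i
  rw [h, Finset.card_image_of_injective _ (point_injective N), Finset.card_univ, Fintype.card_fin]

include U V hS in
/-- The value at a glued point is that of the first reduction. -/
theorem ev_node_eq_s {t : Place k Fb} (ht : t ∈ U.nodes) :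
    ∃ i, ∀ a : Fb, IntegralWrt k S.MC.xb a → N.s i a = ev t a := by
  obtain ⟨i, rfl⟩ := exists_point_eq U V hS N ht
  exact ⟨i, fun a ha => point_spec N ha⟩

include U V hS in
/-- Regular functions vanishing at all glued points have powers divisible by `ub`. -/
theorem exists_pow_dvd {a : Fb} (ha : IntegralWrt k S.MC.xb a)
    (h0 : ∀ t ∈ U.nodes, ev t a = 0) (n : ℕ) (hn : ∀ t ∈ U.nodes, t.ord U.ub ≤ n) (hn0 : 0 < n) :
    IntegralWrt k S.MC.xb (a ^ n / U.ub) := fun P hP => by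
  rcases eq_or_ne a 0 with rfl | ha0
  · rw [zero_pow hn0.ne', zero_div]; exact ordGE_zero _ _
  refine ordGE_of_le ?_
  rw [ord_div P (pow_ne_zero _ ha0) U.ub_ne, Curves.ord_pow]
  by_cases hPn : P ∈ U.nodes
  · have h1 := ((ev_eq_zero_iff P (ha P hP)).1 (h0 P hPn)).le_ord ha0
    have h2 := hn P hPn
    have h3 : (0 : ℤ) < n := by exact_mod_cast hn0
    nlinarith
  · have h1 : P.ord U.ub ≤ 0 := not_lt.1 fun h => hPn (U.mem_nodes.2 ⟨hP, h⟩)
    have h2 := (ha P hP).le_ord ha0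
    have : (0 : ℤ) ≤ n * P.ord a := mul_nonneg (by positivity) h2
    omega

include U V hS in
/-- **Values of integral functions over a glued point.** -/
theorem value_node {Z : F} (hZ : IntegralWrt L S.X Z) {a b : Fb}
    (h1 : S.R₁.Res Z a) (h2 : S.R₂.Res Z b) {t : Place k Fb} (ht : t ∈ U.nodes)
    {Q : Place L F} (hQ : InChart S Q) (hred : red hS Q = t) :
    ∃ h : ev Q Z ∈ A, π ⟨_, h⟩ = ev t a := by
  classical
  obtain ⟨N⟩ := hS.nonempty_nodes
  have ht1 := (U.mem_nodes.1 ht).1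
  refine ⟨chart_value_mem hZ h1.mem h2.mem hQ, ?_⟩
  obtain ⟨c₀, hc₀⟩ := S.MC.surj (ev t a)
  obtain ⟨ha, hb⟩ := regular_of_int hZ h1 h2
  set a' := a - algebraMap k Fb (ev t a) with ha'
  set b' := b - algebraMap k Fb (ev t a) with hb'
  have hc1 : S.R₁.Res (algebraMap L F (c₀ : L)) (algebraMap k Fb (ev t a)) :=
    hc₀ ▸ S.R₁.res_algebraMap c₀
  have hc2 : S.R₂.Res (algebraMap L F (c₀ : L)) (algebraMap k Fb (ev t a)) :=
    hc₀ ▸ S.R₂.res_algebraMap c₀
  obtain ⟨ψ, w, hψ, hw, hw0, hwint, hwP, hws⟩ := exists_regular_prescribed hS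
    (∑ P ∈ U.nodes.erase t, Finsupp.single P 1)
    (Finset.sum_nonneg fun _ _ => Finsupp.single_nonneg.2 zero_le_one) {t} (by simpa using ht1)
  have hwt : t.ord w = 0 := by
    rw [hws t (Finset.mem_singleton_self t), Finsupp.finsetSum_apply]
    refine Finset.sum_eq_zero fun P hP => Finsupp.single_eq_of_ne fun h => ?_
    exact (Finset.mem_erase.1 hP).1 h.symm
  set Z' := (Z - algebraMap L F (c₀ : L)) * S.α ψ with hZ'
  have hint : IntegralWrt L S.X Z' :=
    integralWrt_mul (integralWrt_sub hZ (integralWrt_algebraMap _ _)) (integralWrt_α hψ)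
  have e1 : S.R₁.Res Z' (a' * w) := (h1.sub hc1).mul (S.α₁ _ _ hw)
  have e2 : S.R₂.Res Z' (b' * S.V w) := (h2.sub hc2).mul (S.α₂ _ _ hw)
  obtain ⟨ha'', hb''⟩ := regular_of_int hint e1 e2
  have hnodes1 : ∀ P ∈ U.nodes, ev P (a' * w) = 0 := fun P hP => by
    have hPf := (U.mem_nodes.1 hP).1
    have hreg : IntegralWrt k S.MC.xb a' := integralWrt_sub ha (integralWrt_algebraMap _ _)
    rw [ev_mul P (hreg P hPf) (hwint P hPf)]
    by_cases hPt : P = t
    · subst hPt
      rw [ha', ev_sub P (ha P hPf) (ordGE_algebraMap _ _), ev_const, sub_self, zero_mul]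
    · have h3 := hwP P hPf
      rw [Finsupp.finsetSum_apply, Finset.sum_eq_single P
        (fun R _ hne => Finsupp.single_eq_of_ne hne.symm)
        (fun h => absurd (Finset.mem_erase.2 ⟨hPt, hP⟩) h), Finsupp.single_eq_same] at h3
      rw [(ev_eq_zero_iff P (hwint P hPf)).2 (ordGE_of_le h3), mul_zero]
  set n : ℕ := ∑ P ∈ U.nodes, (P.ord U.ub).toNat + 1
  have hn : ∀ P ∈ U.nodes, P.ord U.ub ≤ n := fun P hP => by
    have h := Finset.single_le_sum (f := fun P => (P.ord U.ub).toNat) (fun _ _ => Nat.zero_le _) hP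
    omega
  have hn0 : 0 < n := Nat.succ_pos _
  have hVb : ∀ P ∈ U.nodes, ev P (S.V (b' * S.V w)) = 0 := fun P hP => by
    obtain ⟨i, hi⟩ := ev_node_eq_s U V hS N hP
    rw [← hi _ (S.V_mem_regular hb''), ← compat_of_int N hint e1 e2 i, hi _ ha'', hnodes1 P hP]
  have hnodes2 : ∀ P ∈ U.nodes, ev P (b' * S.V w) = 0 := fun P hP => by
    obtain ⟨i, hi⟩ := ev_node_eq_s U V hS N hP
    have hreg := exists_pow_dvd U V hS (S.V_mem_regular hb'') hVb n hn hn0
    have hVV : IntegralWrt k S.MC.xb (S.V (S.V (b' * S.V w))) :=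
      S.V_mem_regular (S.V_mem_regular hb'')
    have hz : S.V (S.V (b' * S.V w)) ^ n =
        S.V (S.V (b' * S.V w) ^ n / U.ub) * U.ub ^ q := by
      rw [map_div₀, map_pow, U.V_ub, div_mul_cancel₀ _ (pow_ne_zero _ U.ub_ne)]
    have hub0 : ev P U.ub = 0 := (U.mem_nodes_iff (U.mem_nodes.1 hP).1).1 hP
    have hPf := (U.mem_nodes.1 hP).1
    have h4 := congrArg (ev P) hz
    rw [ev_pow P (hVV P hPf), ev_mul P (S.V_mem_regular hreg P hPf)
      (by simpa using (U.ub_reg P hPf).pow q), ev_pow P (U.ub_reg P hPf), hub0,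
      zero_pow (Fact.out : q.Prime).ne_zero, mul_zero, pow_eq_zero_iff hn0.ne'] at h4
    rw [← hi _ hb'', ← N.s_V i _ hb'', hi _ hVV, h4]
  have hc := exists_pow_dvd U V hS ha'' hnodes1 n hn hn0
  have hd := exists_pow_dvd U V hS hb'' hnodes2 n hn hn0
  obtain ⟨ψc, hψc, hwc⟩ := exists_regular_lift hS hc
  obtain ⟨ψd, hψd, hwd⟩ := exists_regular_lift hS hd
  set Z3 := Z' ^ n - U.u * S.α ψc - U.u' * S.β ψd with hZ3
  have hint3 : IntegralWrt L S.X Z3 := integralWrt_sub (integralWrt_sub (integralWrt_pow hint n)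
    (integralWrt_mul U.u_int (integralWrt_α hψc))) (integralWrt_mul U.u'_int (integralWrt_β hS hψd))
  have f1 : S.R₁.Res Z3 0 := by
    have := ((e1.pow n).sub (U.u_res.mul (S.α₁ _ _ hwc))).sub
      ((U.u'_res₁ V).mul (S.β₁ _ _ hwd))
    convert this using 1
    rw [mul_div_cancel₀ _ U.ub_ne, sub_self, zero_mul, sub_zero]
  have f2 : S.R₂.Res Z3 0 := by
    have := ((e2.pow n).sub ((U.u_res₂ V).mul (S.α₂ _ _ hwc))).sub
      (U.u'_res.mul (S.β₂ _ _ hwd))
    convert this using 1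
    rw [zero_mul, sub_zero, mul_div_cancel₀ _ U.ub_ne, sub_self]
  obtain ⟨h3m, h3⟩ := chart_value_res hint3 f1 f2 hQ
  have hnode : ev (red hS Q) U.ub = 0 := hred ▸ (U.mem_nodes_iff ht1).1 ht
  obtain ⟨hθ1, hθ2⟩ := U.theta_pos_of_node V hQ hS hnode
  have hu := (U.res_eq_zero_iff V hQ).2 hθ1
  have hu' := (U.res_eq_zero_iff' V hQ).2 hθ2
  have hcm := ev_α_mem hS hQ hψc hwc
  have hdm := chart_value_mem (integralWrt_β hS hψd) (S.β₁ _ _ hwd).mem (S.β₂ _ _ hwd).mem hQ
  have hzm := chart_value_mem hint e1.mem e2.mem hQ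
  have hp0 : ∀ {f : F}, IntegralWrt L S.X f → OrdGE Q 0 f := fun hf => hQ.ordGE hf
  have hev : (⟨_, h3m⟩ : A) = (⟨_, hzm⟩ : A) ^ n - ⟨_, U.ev_mem V hQ⟩ * ⟨_, hcm⟩ -
      ⟨_, U.ev_mem' V hQ⟩ * ⟨_, hdm⟩ := Subtype.ext (by
    push_cast
    rw [hZ3, ev_sub Q (hp0 (integralWrt_sub (integralWrt_pow hint n)
        (integralWrt_mul U.u_int (integralWrt_α hψc))))
        (hp0 (integralWrt_mul U.u'_int (integralWrt_β hS hψd))),
      ev_sub Q (hp0 (integralWrt_pow hint n)) (hp0 (integralWrt_mul U.u_int (integralWrt_α hψc))),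
      ev_pow Q (hp0 hint), ev_mul Q (hp0 U.u_int) (hp0 (integralWrt_α hψc)),
      ev_mul Q (hp0 U.u'_int) (hp0 (integralWrt_β hS hψd))])
  rw [hev, map_sub, map_sub, map_mul, map_mul, hu, hu', zero_mul, zero_mul, sub_zero, sub_zero,
    map_pow, pow_eq_zero_iff hn0.ne'] at h3
  have hzev : (⟨_, hzm⟩ : A) =
      (⟨_, chart_value_mem hZ h1.mem h2.mem hQ⟩ - c₀) * ⟨_, ev_α_mem hS hQ hψ hw⟩ :=
    Subtype.ext (by
      push_cast
      rw [hZ', ev_mul Q (hp0 (integralWrt_sub hZ (integralWrt_algebraMap _ _)))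
        (hp0 (integralWrt_α hψ)), ev_sub Q (hp0 hZ) (hp0 (integralWrt_algebraMap _ _)), ev_const])
  rw [hzev, map_mul, map_sub, hc₀, (red_spec hS hQ hψ hw).2, hred] at h3
  exact sub_eq_zero.1 ((mul_eq_zero.1 h3).resolve_right (ev_ne_zero_of_ord hw0 hwt))

end FLTAgent.ModLift.LowerAway
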