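import Fermat.Agent.MazurPrinciple.Slopes
import Fermat.Agent.MazurPrinciple.PowerDiv
import Fermat.Agent.Lowering.P7.Slope

/-!
# Values of a test function at an arbitrary point

In the chart they are read from the position and the reduction; outside, the term of the measuring
function dominates and its test factor is a unit times a power of the coordinate.
-/

set_option autoImplicit false
set_option linter.style.haveILetI false
set_option linter.unusedSectionVars false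
set_option maxHeartbeats 1000000

noncomputable section

namespace FLTAgent.ModLift.LowerAway

open AlgebraicCurve FLTAgent.Curves FLTAgent.Specialization FLTAgent.BadRed FLTAgent.MazurPrinciple
open AlgebraicCurve.SemilinearAut (baseAut)

variable {L k : Type*} [Field L] [Field k] {A : ValuationSubring L} {π : A →+* k}
  {FC Fb F : Type*} [Field FC] [Field Fb] [Field F] [Algebra L FC]
  [Algebra k Fb] [Algebra L F] [IsAlgClosed L] [IsFunctionField L FC] [IsFunctionField L F]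
  [IsAlgClosed k] [IsFunctionField k Fb] {q : ℕ} [Fact q.Prime] {S : Sheet π FC Fb F q}
  {U : UnitData S} {H : Set (SemilinearAut L F)} (V : RatVal π q) (hS : S.Good)
  {Z₀ : Divisor k Fb} {bad : Finset (Place k Fb)} {m : ℕ} (P₀ : Probe S U H Z₀ bad m)

omit [Fact q.Prime] in
/-- The space of the poles contains the test function. -/
theorem probe_mem : P₀.ψ ∈ riemannRochSpace ((m : ℤ) • poleDiv L S.MC.x) := by
  refine mem_rrSpace_poles.2 ⟨P₀.int, fun v hv => ?_⟩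
  obtain ⟨Q, rfl⟩ := exists_below S.α v
  have he : (0 : ℤ) < Place.ramificationIndexAlong S.α Q := by
    exact_mod_cast ramificationIndexAlong_pos S.α Q
  have hX : Q.ord S.X = Place.ramificationIndexAlong S.α Q * (below S.α Q).ord S.MC.x :=
    ord_map_eq S.α Q _
  have hQ : Q.ord S.X < 0 := by rw [hX]; exact mul_neg_of_pos_of_neg he hv
  have h := P₀.pole' Q hQ
  rw [ord_map_eq, hX, ← mul_assoc, mul_comm (m : ℤ), mul_assoc] at h
  exact ordGE_of_le (mul_left_cancel₀ he.ne' h).ge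

include V hS in
/-- Outside the chart the test function is a unit times a power of the coordinate. -/
theorem probe_outside {Q : Place L F} (hQ : ¬ InChart S Q) :
    Q.ord (S.α (P₀.ψ / S.MC.x ^ m)) = 0 ∧ ev Q (S.α (P₀.ψ / S.MC.x ^ m)) ≠ 0 ∧
      V.v (ev Q (S.α (P₀.ψ / S.MC.x ^ m))) = 0 := by
  classical
  set R := below S.α Q
  set x := S.MC.x
  set xm := x ^ m
  have hx0 : x ≠ 0 := ne_zero_of_transcendental S.MC.transcendental_x
  have hxm0 : xm ≠ 0 := pow_ne_zero _ hx0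
  have he : (0 : ℤ) < Place.ramificationIndexAlong S.α Q := by
    exact_mod_cast ramificationIndexAlong_pos S.α Q
  set P := red hS Q with hP
  have hPneg : P.ord S.MC.xb < 0 := not_le.1 fun h => hQ (inChart_of_red hS h)
  have hpd : poleDiv L x R = -R.ord x := by
    rw [poleDiv_apply]
    by_contra hne
    have hpos : 0 < R.ord x := by omega
    refine hQ ⟨?_, ?_⟩
    · rw [Sheet.X, ord_map_eq]
      positivity
    · have : ev R x = 0 := (ev_eq_zero_iff R (ordGE_of_le hpos.le)).2 (ordGE_of_le hpos)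
      rw [Sheet.X, ev_map S.α Q (ordGE_of_le hpos.le), this]
      exact zero_mem A
  have hxm : R.ord xm = -((m : ℤ) * poleDiv L x R) := by
    rw [Curves.ord_pow, hpd]
    ring
  have hψ := probe_mem P₀
  have hxmem : xm ∈ riemannRochSpace ((m : ℤ) • poleDiv L x) :=
    mem_rrSpace.2 fun v => ordGE_of_le (by
      rw [Finsupp.smul_apply, smul_eq_mul, Curves.ord_pow, poleDiv_apply]
      have : -(v.ord x) ≤ max (-(v.ord x)) 0 := le_max_left _ _
      have : (0 : ℤ) ≤ m := Int.natCast_nonneg m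
      nlinarith)
  set ρ := P₀.ψ / xm with hρ
  have hρ0 : OrdGE R 0 ρ := by
    rcases eq_or_ne P₀.ψ 0 with h0 | h0
    · rw [hρ, h0, zero_div]; exact ordGE_zero _ _
    refine ordGE_of_le ?_
    have := (mem_rrSpace.1 hψ R).le_ord h0
    rw [Finsupp.smul_apply, smul_eq_mul] at this
    rw [hρ, ord_div R h0 hxm0, hxm]
    change -((m : ℤ) * poleDiv L x R) ≤ R.ord P₀.ψ at this
    omega
  set a := ev R ρ
  have key : ∀ {b : L} {g : FC} {gb : Fb}, S.MC.Res g gb → g = b • (P₀.ψ - algebraMap L FC a * xm) →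
      OrdGE P (1 + (m : ℤ) * P.ord S.MC.xb) gb := by
    intro b g gb hg hb
    have hmem : g ∈ riemannRochSpace ((m : ℤ) • poleDiv L x - Finsupp.single R 1) := by
      rw [hb]
      refine Submodule.smul_mem _ _ (mem_rrSpace.2 fun v => ?_)
      rw [Finsupp.sub_apply, Finsupp.single_apply]
      split_ifs with hv
      · subst hv
        have h1 := (ordGE_of_le (v := R) (f := xm) hxm.ge).mul (ev_spec R hρ0)
        rw [mul_sub, hρ, mul_div_cancel₀ _ hxm0, mul_comm xm] at h1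
        refine h1.mono (le_of_eq ?_)
        rw [Finsupp.smul_apply, smul_eq_mul]
        ring
      · rw [sub_zero]
        exact mem_rrSpace.1 (Submodule.sub_mem _ hψ
          (by rw [← Algebra.smul_def]; exact Submodule.smul_mem _ _ hxmem)) v
    have h := mem_rrSpace.1 (Model.res_mem_rrSpace hS.smooth hmem hg) P
    rw [map_sub, exists_divMap_poles, Model.divMap_single, Finsupp.sub_apply, Finsupp.smul_apply,
      show Model.place hS.smooth R = P from rfl, Finsupp.single_eq_same, smul_eq_mul,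
      poleDiv_apply, max_eq_left (by omega)] at h
    refine h.mono (le_of_eq ?_)
    ring
  have hxbm : P.ord (S.MC.xb ^ m) = (m : ℤ) * P.ord S.MC.xb := Curves.ord_pow _ _ _
  have haA : a ∈ A := by
    by_contra haA
    have ha0 : a ≠ 0 := fun h => haA (h ▸ zero_mem A)
    have hai : a⁻¹ ∈ A := (A.mem_or_inv_mem a).resolve_left haA
    have hπ : π ⟨_, hai⟩ = 0 := Reduction.map_eq_zero_of_inv_notMem S.MC.surj (by simpa using haA)
    have hres := (P₀.res.smul ⟨_, hai⟩).sub (S.MC.x_res.pow m)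
    rw [hπ, zero_smul, zero_sub] at hres
    have h := (key (b := a⁻¹) hres (by
      rw [smul_sub, Algebra.smul_def a⁻¹ (algebraMap L FC a * xm), ← mul_assoc, ← map_mul,
        inv_mul_cancel₀ ha0, map_one, one_mul])).le_ord
      (neg_ne_zero.2 (pow_ne_zero _ S.xb_ne_zero))
    rw [FLTAgent.Curves.ord_neg, hxbm] at h
    omega
  have hres := P₀.res.sub ((S.MC.res_algebraMap ⟨a, haA⟩).mul (S.MC.x_res.pow m))
  have h := key (b := 1) hres (one_smul _ _).symm
  have ha : π ⟨a, haA⟩ ≠ 0 := fun h0 => by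
    rw [h0, map_zero, zero_mul, sub_zero] at h
    have := h.le_ord P₀.w_ne
    rw [P₀.pole P hPneg] at this
    omega
  obtain ⟨hane, hav⟩ := V.v_eq_zero_of_res ha
  have hev : ev Q (S.α ρ) = a := ev_map S.α Q hρ0
  have hord : R.ord ρ = 0 := (ord_eq_zero_of_ev_ne hρ0 hane).2
  refine ⟨?_, ?_, ?_⟩
  · rw [ord_map_eq, hord, mul_zero]
  · rw [hev]; exact hane
  · rw [hev]; exact hav

include V hS in
/-- Outside the chart the first term of the test function dominates. -/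
theorem num_outside (hm : 0 < m) {Q : Place L F} (hQ : ¬ InChart S Q) :
    ∃ e₀ : ℕ, ∀ e, e₀ ≤ e → ∀ c : A, π c ≠ 0 →
      Q.ord (P₀.num e (c : L) / (U.u * S.X ^ (e * m))) = 0 ∧
      ev Q (P₀.num e (c : L) / (U.u * S.X ^ (e * m))) ≠ 0 ∧
      V.v (ev Q (P₀.num e (c : L) / (U.u * S.X ^ (e * m)))) = 0 := by
  classical
  obtain ⟨hρo, hρne, hρv⟩ := probe_outside V hS P₀ hQ
  set ρ := S.α (P₀.ψ / S.MC.x ^ m)
  have hX0 : S.X ≠ 0 := ne_zero_of_transcendental S.transcendental_X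
  have hρ : OrdGE Q 0 ρ := ordGE_of_le hρo.ge
  suffices hex : ∃ e₀ : ℕ, ∀ e, e₀ ≤ e → ∀ c : A, π c ≠ 0 →
      OrdGE Q 0 (algebraMap L F ((c : L) * (q : L) ^ U.w) * (U.u * S.X ^ (e * m))⁻¹) ∧
      V.GT 0 (ev Q (algebraMap L F ((c : L) * (q : L) ^ U.w) * (U.u * S.X ^ (e * m))⁻¹)) by
    obtain ⟨e₀, he₀⟩ := hex
    refine ⟨e₀, fun e he c hc => ?_⟩
    obtain ⟨hs, hsv⟩ := he₀ e he c hc
    have e1 : P₀.num e (c : L) / (U.u * S.X ^ (e * m)) =
        ρ ^ e + algebraMap L F ((c : L) * (q : L) ^ U.w) * (U.u * S.X ^ (e * m))⁻¹ := by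
      rw [Probe.num, numFun, map_one, one_pow, mul_one, add_div, div_eq_mul_inv (algebraMap L F _)]
      congr 1
      have hu := U.u_ne
      simp only [ρ, map_div₀, map_pow, div_pow, ← pow_mul, mul_comm m e]
      rw [show S.α S.MC.x = S.X from rfl, mul_div_mul_left _ _ hu]
    have hρe : OrdGE Q 0 (ρ ^ e) := by simpa using hρ.pow e
    obtain ⟨hne, hv⟩ := V.v_add_eq (pow_ne_zero e hρne) (by
      rw [V.v_pow hρne, hρv, mul_zero]; exact hsv)
    have hev : ev Q (ρ ^ e + algebraMap L F ((c : L) * (q : L) ^ U.w) * (U.u * S.X ^ (e * m))⁻¹) =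
        ev Q ρ ^ e + ev Q (algebraMap L F ((c : L) * (q : L) ^ U.w) * (U.u * S.X ^ (e * m))⁻¹) := by
      rw [ev_add Q hρe hs, ev_pow Q hρ]
    rw [e1]
    refine ⟨(ord_eq_zero_of_ev_ne (hρe.add hs) (by rw [hev]; exact hne)).2,
      by rw [hev]; exact hne, ?_⟩
    rw [hev, hv, V.v_pow hρne, hρv, mul_zero]
  by_cases hXo : Q.ord S.X < 0
  · refine ⟨(Q.ord U.u).natAbs + 1, fun e he c _ => ?_⟩
    have h1 : OrdGE Q 1 (U.u * S.X ^ (e * m))⁻¹ := by
      refine ordGE_of_le ?_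
      rw [Q.ord_inv, Q.ord_mul U.u_ne (pow_ne_zero _ hX0), Curves.ord_pow]
      have h3 : Q.ord U.u ≤ ((Q.ord U.u).natAbs : ℤ) := Int.le_natAbs
      have h4 : ((Q.ord U.u).natAbs : ℤ) + 1 ≤ (e * m : ℕ) := by
        exact_mod_cast he.trans (Nat.le_mul_of_pos_right e hm)
      nlinarith
    have h2 := (ordGE_algebraMap Q ((c : L) * (q : L) ^ U.w)).mul h1
    exact ⟨h2.mono (by norm_num), Or.inl ((ev_eq_zero_iff Q (h2.mono (by norm_num))).2
      (h2.mono (by norm_num)))⟩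
  · push Not at hXo
    have hu0 : Q.ord U.u = 0 := ord_u_eq_zero hXo V
    have hx : OrdGE Q 0 S.X := ordGE_of_le hXo
    have hxA : ev Q S.X ∉ A := fun h => hQ ⟨hXo, h⟩
    have hx0 : ev Q S.X ≠ 0 := fun h => hxA (h ▸ zero_mem A)
    have hxv : V.v (ev Q S.X) < 0 := not_le.1 fun h => hxA ((V.mem_iff _ hx0).2 h)
    have hu : ev Q U.u ≠ 0 := ev_ne_zero_of_ord U.u_ne hu0
    obtain ⟨E, hE⟩ := exists_nat_gt ((V.v (ev Q U.u) - U.w) / -V.v (ev Q S.X))
    refine ⟨E, fun e he c hc => ?_⟩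
    obtain ⟨hcne, hcv⟩ := V.v_eq_zero_of_res hc
    have hXe : OrdGE Q 0 (S.X ^ (e * m)) := by simpa using hx.pow (e * m)
    have hden : OrdGE Q 0 (U.u * S.X ^ (e * m)) := by
      simpa using (ordGE_of_le (v := Q) (f := U.u) hu0.ge).mul hXe
    have hevd : ev Q (U.u * S.X ^ (e * m)) = ev Q U.u * ev Q S.X ^ (e * m) := by
      rw [ev_mul Q (ordGE_of_le hu0.ge) hXe, ev_pow Q hx]
    have hord : Q.ord (U.u * S.X ^ (e * m)) = 0 :=
      (ord_eq_zero_of_ev_ne hden (by rw [hevd]; exact mul_ne_zero hu (pow_ne_zero _ hx0))).2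
    have hinv : OrdGE Q 0 (U.u * S.X ^ (e * m))⁻¹ :=
      ordGE_of_le (by rw [Q.ord_inv, hord, neg_zero])
    have hevi : ev Q (U.u * S.X ^ (e * m))⁻¹ = (ev Q U.u * ev Q S.X ^ (e * m))⁻¹ := by
      refine eq_inv_of_mul_eq_one_left ?_
      rw [← hevd, ← ev_mul Q hinv hden, inv_mul_cancel₀
        (mul_ne_zero U.u_ne (pow_ne_zero _ hX0)), ev_one]
    refine ⟨((ordGE_algebraMap Q _).mul hinv).mono (by norm_num), Or.inr ?_⟩
    rw [ev_mul Q (ordGE_algebraMap Q _) hinv, ev_const, hevi,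
      V.v_mul _ _ (mul_ne_zero hcne (pow_ne_zero _ V.p_ne))
        (inv_ne_zero (mul_ne_zero hu (pow_ne_zero _ hx0))),
      V.v_mul _ _ hcne (pow_ne_zero _ V.p_ne), hcv, V.v_pow V.p_ne, V.v_p,
      V.v_inv (mul_ne_zero hu (pow_ne_zero _ hx0)), V.v_mul _ _ hu (pow_ne_zero _ hx0),
      V.v_pow hx0]
    rw [div_lt_iff₀ (by linarith)] at hE
    have h5 : (E : ℚ) ≤ ((e * m : ℕ) : ℚ) := by
      exact_mod_cast he.trans (Nat.le_mul_of_pos_right e hm)
    push_cast at h5 ⊢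
    nlinarith

variable {e : ℕ} {c : A} (hc : π c ≠ 0) {Q : Place L F} (hQ : InChart S Q)

include hQ in
theorem ev_num : ev Q (P₀.num e (c : L)) =
    ev Q U.u * ev Q (S.α P₀.ψ) ^ e + (c : L) * (q : L) ^ U.w := by
  have ha : OrdGE Q 0 (S.α P₀.ψ ^ e) := by
    simpa using (hQ.ordGE (integralWrt_α P₀.int)).pow e
  rw [Probe.num, numFun, map_one, one_pow, mul_one,
    ev_add Q (by simpa using (hQ.ordGE U.u_int).mul ha) (ordGE_algebraMap Q _),
    ev_mul Q (hQ.ordGE U.u_int) ha, ev_const, ev_pow Q (hQ.ordGE (integralWrt_α P₀.int))]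

include V hS hc hQ in
/-- Off the zeros of the reduction and off the second sheet: the position. -/
theorem v_num_of_ne (hw : ev (red hS Q) P₀.w ≠ 0) (hθ : U.theta V Q < U.w) :
    ev Q (P₀.num e (c : L)) ≠ 0 ∧ V.v (ev Q (P₀.num e (c : L))) = U.theta V Q := by
  obtain ⟨hcne, hcv⟩ := V.v_eq_zero_of_res hc
  obtain ⟨hane, hav⟩ := (v_ev_α U V hS hQ P₀.int P₀.res).1 hw
  have hu := U.ev_ne V hQ
  have h1 : V.v (ev Q U.u * ev Q (S.α P₀.ψ) ^ e) = U.theta V Q := by
    rw [V.v_mul _ _ hu (pow_ne_zero _ hane), V.v_pow hane, hav, mul_zero, add_zero]; rfl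
  obtain ⟨h2, h3⟩ := V.v_add_eq (mul_ne_zero hu (pow_ne_zero e hane))
    (y := (c : L) * (q : L) ^ U.w) (Or.inr (by
      rw [h1, V.v_mul _ _ hcne (pow_ne_zero _ V.p_ne), hcv, V.v_pow V.p_ne, V.v_p]
      push_cast; linarith))
  rw [ev_num P₀ hQ]
  exact ⟨h2, h3.trans h1⟩

include V hS hQ in
/-- At a zero of the reduction: twelve, for large exponents. -/
theorem v_num_of_eq (hw : ev (red hS Q) P₀.w = 0) :
    ∃ e₀ : ℕ, ∀ e, e₀ ≤ e → ∀ c : A, π c ≠ 0 →
      ev Q (P₀.num e (c : L)) ≠ 0 ∧ V.v (ev Q (P₀.num e (c : L))) = U.w := by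
  have hθ := U.theta_nonneg V hQ
  have key : ∃ e₀ : ℕ, ∀ e, e₀ ≤ e → V.GT U.w (ev Q U.u * ev Q (S.α P₀.ψ) ^ e) := by
    rcases eq_or_ne (ev Q (S.α P₀.ψ)) 0 with ha | ha
    · exact ⟨1, fun e he => Or.inl (by rw [ha, zero_pow (by omega), mul_zero])⟩
    have hpos := ((v_ev_α U V hS hQ P₀.int P₀.res).2 ha).2.1 hw
    obtain ⟨E, hE⟩ := exists_nat_gt (U.w / V.v (ev Q (S.α P₀.ψ)))
    refine ⟨E, fun e he => Or.inr ?_⟩
    rw [V.v_mul _ _ (U.ev_ne V hQ) (pow_ne_zero _ ha), V.v_pow ha]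
    rw [div_lt_iff₀ hpos] at hE
    have h5 : (E : ℚ) ≤ e := by exact_mod_cast he
    rw [UnitData.theta] at hθ
    nlinarith
  obtain ⟨e₀, he₀⟩ := key
  refine ⟨e₀, fun e he c hc => ?_⟩
  obtain ⟨hcne, hcv⟩ := V.v_eq_zero_of_res hc
  have hcp : V.v ((c : L) * (q : L) ^ U.w) = U.w := by
    rw [V.v_mul _ _ hcne (pow_ne_zero _ V.p_ne), hcv, V.v_pow V.p_ne, V.v_p]; norm_num
  obtain ⟨h2, h3⟩ := V.v_add_eq (mul_ne_zero hcne (pow_ne_zero _ V.p_ne))
    (y := ev Q U.u * ev Q (S.α P₀.ψ) ^ e) (by rw [hcp]; exact he₀ e he)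
  rw [ev_num P₀ hQ, add_comm]
  exact ⟨h2, h3.trans hcp⟩

include V hS hc hQ in
/-- On the second sheet, away from finitely many constants: twelve. -/
theorem v_num_second [CharP k q] (hθ : U.theta V Q = U.w)
    (hav : ev (red hS Q) P₀.w ^ (e * q) + π c ^ q * ev (red hS Q) U.ub ≠ 0) :
    ev Q (P₀.num e (c : L)) ≠ 0 ∧ V.v (ev Q (P₀.num e (c : L))) = U.w := by
  have ha := ev_α_mem hS hQ P₀.int P₀.res
  have hu' := U.ev_mem' V hQ
  have hr : π ⟨_, U.ev_mem V hQ⟩ = 0 :=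
    (U.res_eq_zero_iff V hQ).2 (by rw [hθ]; exact_mod_cast U.w_pos)
  have hsum := U.res_sum V hQ hS
  rw [hr, zero_add] at hsum
  set y : A := ⟨_, ha⟩ ^ e + c * ⟨_, hu'⟩ with hy
  have hyne : π y ≠ 0 := fun h0 => hav (by
    have h := congrArg (· ^ q) h0
    simp only [hy, map_add, map_pow, map_mul, (red_spec hS hQ P₀.int P₀.res).2] at h
    rw [add_pow_char, zero_pow (Fact.out : q.Prime).ne_zero, mul_pow, hsum, ← pow_mul] at h
    exact h)
  obtain ⟨hy0, hyv⟩ := V.v_eq_zero_of_res hyne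
  have e1 : ev Q (P₀.num e (c : L)) * ev Q U.u' = (q : L) ^ U.w * (y : L) := by
    rw [ev_num P₀ hQ, hy, ← U.ev_mul' V hQ]
    push_cast
    ring
  have hne : ev Q (P₀.num e (c : L)) ≠ 0 := fun h0 =>
    mul_ne_zero (pow_ne_zero U.w V.p_ne) hy0 (by rw [← e1, h0, zero_mul])
  refine ⟨hne, ?_⟩
  have h := congrArg V.v e1
  rw [V.v_mul _ _ hne (U.ev_ne' V hQ), U.v_ev' V hQ, hθ, V.v_mul _ _ (pow_ne_zero _ V.p_ne) hy0,
    hyv, V.v_pow V.p_ne, V.v_p] at h
  norm_num at h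
  linarith

include hS in
/-- An automorphism trivial on the residues fixes the specialisation. -/
theorem red_smul (hH : LiftsInvariant S H) (hH0 : ∀ σ ∈ H, σ • S.X = S.X)
    (hres : ∀ σ ∈ H, ∀ a : A, ∃ h : baseAut σ (a : L) ∈ A, π ⟨_, h⟩ = π a)
    {σ : SemilinearAut L F} (hσ : σ ∈ H) {Q : Place L F} (hQ : InChart S Q) :
    InChart S (σ • Q) ∧ red hS (σ • Q) = red hS Q := by
  classical
  have hX : OrdGE Q 0 S.X := ordGE_of_le hQ.1
  have hch : InChart S (σ • Q) := by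
    refine ⟨?_, ?_⟩
    · rw [← hH0 σ hσ, SemilinearAut.ord_smul]; exact hQ.1
    · rw [← hH0 σ hσ, ev_smul_aut σ Q hX]
      exact (hres σ hσ ⟨_, hQ.2⟩).1
  refine ⟨hch, ?_⟩
  by_contra hne
  set P := red hS Q
  set P' := red hS (σ • Q)
  obtain ⟨-, w, -, -, hw0, hwint, hwP, hws⟩ := (exists_clear hS 0 le_rfl (Finsupp.single P 1)
    (Finsupp.single_nonneg.2 zero_le_one) {P'} (by simpa using red_finite hS hch)).imp
    fun ψ h => h.imp fun w h => (⟨h.1, h.2.1, h.2.2.1, S.MC.integralWrt_res h.1 h.2.1,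
      h.2.2.2.2.1, h.2.2.2.2.2⟩ : IntegralWrt L S.MC.x ψ ∧ S.MC.Res ψ w ∧ w ≠ 0 ∧
        IntegralWrt k S.MC.xb w ∧ _ ∧ _)
  obtain ⟨m₀, hm₀⟩ := hH
  obtain ⟨m₁, hm₁⟩ := exists_mem_poles hwint
  obtain ⟨ψ, hψ, hres', hfix⟩ := hm₀ (max m₁ m₀) (le_max_right _ _) w
    (poles_mono (le_max_left _ _) hm₁)
  have hψi := (mem_rrSpace_poles.1 hψ).1
  have h1 := (red_spec hS hQ hψi hres').2
  have h2 := (red_spec hS hch hψi hres').2
  have h3 : ev (σ • Q) (S.α ψ) = baseAut σ (ev Q (S.α ψ)) := by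
    conv_lhs => rw [← hfix σ hσ]
    exact ev_smul_aut σ Q (hQ.ordGE (integralWrt_α hψi))
  obtain ⟨hm, h4⟩ := hres σ hσ ⟨_, ev_α_mem hS hQ hψi hres'⟩
  have h5 : ev P' w = ev P w := by
    rw [← h1, ← h2, ← h4]
    exact congrArg π (Subtype.ext h3)
  have hPw : ev P w = 0 := by
    refine (ev_eq_zero_iff P (hwint P (red_finite hS hQ))).2 (ordGE_of_le ?_)
    have := hwP P (red_finite hS hQ)
    rwa [Finsupp.single_eq_same, map_zero, Finsupp.zero_apply, add_zero] at this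
  refine ev_ne_zero_of_ord hw0 ?_ (h5.trans hPw)
  rw [hws P' (Finset.mem_singleton_self P'), Finsupp.single_eq_of_ne hne, map_zero,
    Finsupp.zero_apply, add_zero]

end FLTAgent.ModLift.LowerAway
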