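import Fermat.Agent.ModLift.LowerAway.Theta
import Fermat.Agent.ModLift.LowerAway.Values
import Fermat.Agent.Kronecker.Congruence
import Fermat.Agent.Lowering.P7.Shortcuts

/-!
# Positions summed over a Hecke translate

For an auxiliary prime `r ≡ 11 mod 12` the points of level `Mrq` over a glued point of level `M`
lie over glued points of multiplicity twelve of level `Mr`, so the positions of the points of a
translate by `T_r` of a divisor fixed by inertia add up to a multiple of twelve.
-/

set_option autoImplicit false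
set_option linter.style.haveILetI false
set_option linter.unusedSectionVars false
set_option synthInstance.maxHeartbeats 400000
set_option maxHeartbeats 2000000

noncomputable section

open AlgebraicCurve ModularCurve IsLocalRing

namespace FLTAgent.ModLift.LowerAway

open FLTAgent.Curves FLTAgent.Specialization FLTAgent.BadRed FLTAgent.MazurPrinciple
open AlgebraicCurve.SemilinearAut (baseAut)

local notation "QA" => AlgebraicClosure ℚ
local notation "GG" => (AlgebraicClosure ℚ ≃ₐ[ℚ] AlgebraicClosure ℚ)

section Places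

variable {K F F' : Type*} [Field K] [Field F] [Field F'] [Algebra K F] [Algebra K F']
  [IsAlgClosed K] [Curves.IsFunctionField K F] [Curves.IsFunctionField K F']

omit [IsAlgClosed K] [Curves.IsFunctionField K F] [Curves.IsFunctionField K F'] in
theorem ordGE_smul_iff {E : Type*} [Field E] [Algebra K E] [IsAlgClosed K]
    [Curves.IsFunctionField K E] (τ : SemilinearAut K E) (P : Place K E) (z : E) :
    OrdGE (τ • P) 0 (τ • z) ↔ OrdGE P 0 z :=
  ⟨fun h1 => by
    have h2 := ordGE_smul τ⁻¹ (τ • P) h1
    rwa [inv_smul_smul, inv_smul_smul] at h2, ordGE_smul τ P⟩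

/-- Points below of translated points. -/
theorem below_smul_comm (φ : F →ₐ[K] F') (σ : SemilinearAut K F') (σ' : SemilinearAut K F)
    (h : ∀ z, φ (σ' • z) = σ • φ z) (Q : Place K F') :
    below φ (σ • Q) = σ' • below φ Q := by
  refine Place.ext (SetLike.ext fun z => ?_)
  rw [← ordGE_zero_iff_mem, ← ordGE_zero_iff_mem, ← ordGE_map_iff, ← smul_inv_smul σ' z, h, ordGE_smul_iff, ordGE_smul_iff,
    ordGE_map_iff]

omit [IsAlgClosed K] [Curves.IsFunctionField K F] [Curves.IsFunctionField K F'] in
variable [IsAlgClosed K] [Curves.IsFunctionField K F] [Curves.IsFunctionField K F'] in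
/-- Pushing a divisor forward: its image. -/
theorem pushforwardAlong_eq (φ : F →ₐ[K] F') (hφ : φ.toRingHom.IsIntegral) (D : Divisor K F') :
    Divisor.pushforwardAlong φ hφ D = Finsupp.mapDomain (below φ) D := by
  induction D using Finsupp.induction_linear with
  | zero => simp
  | add D E hD hE => rw [map_add, hD, hE, Finsupp.mapDomain_add]
  | single w n =>
    have hone : w.inertiaDegAlong φ hφ = 1 := by
      letI := algebraAlong φ
      haveI := isScalarTower_along φ
      haveI := isIntegral_along φ hφ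
      have h := w.deg_restrict_mul_inertiaDeg (F := F)
      rw [deg_eq_one, deg_eq_one, one_mul] at h
      exact h
    rw [Divisor.pushforwardAlong_single, hone, Nat.cast_one, mul_one, Finsupp.mapDomain_single]
    rfl

end Places

section Level

variable {q r : ℕ} [Fact q.Prime] [NeZero q] [Fact r.Prime] [NeZero r] {M : ℕ} [NeZero M]
  [NeZero (M * q)] [NeZero (M * r)] [NeZero (M * r * q)] [NeZero (M * q * r)] (hqM : ¬ q ∣ M)
  (hqMr : ¬ q ∣ M * r)
  {A : ValuationSubring QA} [IsAlgClosed (ResidueField A)] [CharP (ResidueField A) q]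
  [Curves.IsFunctionField (ResidueField A) (modularFunctionFieldFullC (ResidueField A) M)]
  [Curves.IsFunctionField (ResidueField A) (modularFunctionFieldFullC (ResidueField A) (M * r))]
  (hA : A.LiesOverPrime q)

local notation "kk" => ResidueField A

include hA in
/-- Inertia fixes the coordinate and the residues. -/
theorem inertia_res (N : ℕ) :
    ∀ σ ∈ inertiaSet A N, ∀ a : A, ∃ h : baseAut σ (a : QA) ∈ A,
      residue A ⟨_, h⟩ = residue A a := by
  rintro _ ⟨τ, hτ, rfl⟩ a
  obtain ⟨hd, hi⟩ : ∃ hd : τ ∈ A.decompositionSubgroup ℚ,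
      (⟨τ, hd⟩ : A.decompositionSubgroup ℚ) ∈ A.inertiaSubgroup ℚ := by
    obtain ⟨g, hg, rfl⟩ := Subgroup.mem_map.1 hτ
    exact ⟨g.2, hg⟩
  have h1 : MulSemiringAction.toRingAut (A.decompositionSubgroup ℚ) (ResidueField A)
      ⟨τ, hd⟩ = 1 := hi
  have h2 := DFunLike.congr_fun h1 (residue A a)
  refine ⟨((⟨τ, hd⟩ : A.decompositionSubgroup ℚ) • a).2, ?_⟩
  exact h2

include hqM in
/-- Galois fixes the coordinate. -/
theorem galois_smul_X (σ : GG) :
    arithmeticGalois (modularFunctionFieldFull (M * q)) σ • (sheetAt hqM hA).X =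
      (sheetAt hqM hA).X := by
  show arithmeticGalois (modularFunctionFieldFull (M * q)) σ •
    heckeAlphaBar QA M q (sheetAt hqM hA).MC.x = heckeAlphaBar QA M q (sheetAt hqM hA).MC.x
  rw [galois_smul_alpha, show (sheetAt hqM hA).MC.x = _ from
    modelX_eq residue_surjective (natCast_ne_zero hqM kk), galois_smul_jEl]

variable [HasPrincipalDivisors QA (modularFunctionFieldBar (M * q * r))]
  (hα : HeckeAlphaBarIntegral QA (M * q) r) (hβ : HeckeBetaBarIntegral QA (M * q) r)

open scoped Classical in
include hqMr in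
/-- **The positions over a glued point of a translate of a fixed divisor add up to a multiple of
twelve.** -/
theorem sum_theta_dvd (hr : r % 12 = 11) (U : UnitData (sheetAt hqM hA))
    (hu : (U.u : LaurentSeries QA) = unitSer QA q)
    (hS : (sheetAt hqM hA).Good)
    {t : Place kk (modularFunctionFieldFullC kk M)} (ht : t ∈ U.nodes)
    {n : ℕ} (hn : n ≠ 0) {f : X0Bar (M * q)} (hf : f ≠ 0)
    (hfix : ∀ τ ∈ A.inertiaSubgroupIn ℚ,
      arithmeticGalois (modularFunctionFieldFull (M * q)) τ • f = f)
    (D : Divisor QA (X0Bar (M * q))) (hD : ∀ v, v.ord f = (n : ℤ) * D v) :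
    ∃ z : ℤ, ∑ Q ∈ ((heckeDivBar hα hβ D).support.filter fun Q =>
        InChart (sheetAt hqM hA) Q ∧ red hS Q = t),
      (heckeDivBar hα hβ D Q : ℚ) * U.theta (ratVal hA) Q = 12 * z := by
  haveI := Specialization.instIsFunctionFieldX0Bar M
  haveI := Specialization.instIsFunctionFieldX0Bar (M * q)
  haveI := Specialization.instIsFunctionFieldX0Bar (M * r)
  haveI := Specialization.instIsFunctionFieldX0Bar (M * r * q)
  haveI := Specialization.instIsFunctionFieldX0Bar (M * q * r)
  set V := ratVal hA
  have hsm' := smooth_any hqMr hA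
  have hS' := Lowering.P7.good hqMr hA hsm'
  obtain ⟨U', hu', -, hUw', hub'⟩ := exists_unitData (M := M * r) hqMr residue_surjective (rankOne_residue hA)
  -- the inclusions
  set α := heckeAlphaBar QA (M * q) r
  set β := heckeBetaBar QA (M * q) r
  let φ : X0Bar (M * r * q) →ₐ[QA] X0Bar (M * q * r) :=
    IntermediateField.inclusion (X0Bar_mono (by rw [Nat.mul_right_comm]))
  have hφc : ∀ z : X0Bar (M * r * q), (φ z : LaurentSeries QA) = z := fun z =>
    IntermediateField.coe_inclusion _ z
  have hφX : φ (sheetAt hqMr hA).X = α (sheetAt hqM hA).X := Subtype.ext <| by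
    rw [hφc, coe_heckeAlphaBar]
    show ((heckeAlphaBar QA (M * r) q (sheetAt hqMr hA).MC.x : X0Bar (M * r * q)) :
        LaurentSeries QA) =
      ((heckeAlphaBar QA M q (sheetAt hqM hA).MC.x : X0Bar (M * q)) : LaurentSeries QA)
    rw [coe_heckeAlphaBar, coe_heckeAlphaBar,
      show (sheetAt hqMr hA).MC.x = _ from modelX_eq residue_surjective (natCast_ne_zero hqMr kk),
      show (sheetAt hqM hA).MC.x = _ from modelX_eq residue_surjective (natCast_ne_zero hqM kk),
      Kronecker.coe_jEl, Kronecker.coe_jEl]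
  have hφu : φ U'.u = α U.u := Subtype.ext <| by
    rw [hφc, coe_heckeAlphaBar, hu', hu]
  have hαgal : ∀ (σ : GG) (z : X0Bar (M * q)),
      α (arithmeticGalois (modularFunctionFieldFull (M * q)) σ • z) =
        arithmeticGalois (modularFunctionFieldFull (M * q * r)) σ • α z := fun σ z =>
    (galois_smul_alpha σ z).symm
  have hφgal : ∀ (σ : GG) (z : X0Bar (M * r * q)),
      φ (arithmeticGalois (modularFunctionFieldFull (M * r * q)) σ • z) =
        arithmeticGalois (modularFunctionFieldFull (M * q * r)) σ • φ z := fun σ z =>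
    Subtype.ext <| by
      rw [hφc, coe_arithmeticGalois_smul, coe_arithmeticGalois_smul, hφc]
  -- a uniformiser at every glued point of level `M r`
  have huni : ∀ t' ∈ U'.nodes, ∃ h : X0Bar (M * r * q),
      (∀ σ ∈ inertiaSet A (M * r * q), σ • h = h) ∧
      IntegralWrt QA (sheetAt hqMr hA).X h ∧
      ∀ Q, InChart (sheetAt hqMr hA) Q → red hS' Q = t' →
        ev Q h ≠ 0 ∧ U'.theta V Q = 12 * V.v (ev Q h) := by
    intro t' ht'
    obtain ⟨h, a, hint, h1, hta, h2, hfixh⟩ := exists_uniformiser hqMr hA U' ht'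
    have ha0 : a ≠ 0 := fun h0 => by rw [h0, t'.ord_zero] at hta; omega
    exact ⟨h, hfixh, hint, fun Q hQ hred => theta_eq U' V hS' hint ha0 h1 h2 ht' hta
      (ord_ub_eq_twelve hqMr hA (dvd_mul_left r M) hr U' hub' hUw' ht') hUw' hQ hred⟩
  choose! hh hhfix hhint hhval using huni
  -- the points considered
  set P : Place QA (X0Bar (M * q)) → Prop := fun Q => InChart (sheetAt hqM hA) Q ∧ red hS Q = t
  set D' := Divisor.pullbackAlong β hβ D
  have hpush : heckeDivBar hα hβ D = Finsupp.mapDomain (below α) D' := pushforwardAlong_eq α hα D'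
  set T := D'.support.filter fun w => P (below α w)
  have hsum : ∑ Q ∈ ((heckeDivBar hα hβ D).support.filter P),
      (heckeDivBar hα hβ D Q : ℚ) * U.theta V Q =
      ∑ w ∈ T, (D' w : ℚ) * U.theta V (below α w) := by
    have h := Finsupp.sum_mapDomain_index (f := below α) (s := D')
      (h := fun Q (c : ℤ) => if P Q then (c : ℚ) * U.theta V Q else 0)
      (fun Q => by simp) (fun Q c₁ c₂ => by push_cast; split_ifs <;> ring)
    rw [← hpush] at h
    simp only [Finsupp.sum] at h
    rwa [← Finset.sum_filter, ← Finset.sum_filter] at h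
  have hkey : ∀ w, P (below α w) →
      InChart (sheetAt hqMr hA) (below φ w) ∧ red hS' (below φ w) ∈ U'.nodes ∧
      U'.theta V (below φ w) = U.theta V (below α w) := by
    rintro w ⟨hQ, hred⟩
    have hX0 : OrdGE (below φ w) 0 (sheetAt hqMr hA).X := by
      rw [← ordGE_map_iff, hφX, ordGE_map_iff]
      exact ordGE_of_le hQ.1
    have hch : InChart (sheetAt hqMr hA) (below φ w) := by
      refine ⟨hX0.le_ord (ne_zero_of_transcendental (sheetAt hqMr hA).transcendental_X), ?_⟩
      rw [← ev_map φ w hX0, hφX, ev_map α w (ordGE_of_le hQ.1)]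
      exact hQ.2
    have hθ : U'.theta V (below φ w) = U.theta V (below α w) := by
      rw [UnitData.theta, UnitData.theta, ← ev_map φ w (hch.ordGE U'.u_int), hφu,
        ev_map α w (hQ.ordGE U.u_int)]
    obtain ⟨h1, h2⟩ := U.theta_pos_of_node V hQ hS
      (hred ▸ (U.mem_nodes_iff (U.mem_nodes.1 ht).1).1 ht)
    refine ⟨hch, (U'.mem_nodes_iff (red_finite hS' hch)).2 ?_, hθ⟩
    by_contra hne
    have hUw : U.w = 12 := w_eq_twelve hqM residue_surjective (rankOne_residue hA) (ratVal hA) U hu
    rw [hUw] at h2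
    push_cast at h2
    rcases U'.theta_cases V hch hS' hne with h0 | h0 <;> rw [hθ] at h0 <;>
      (try rw [hUw'] at h0) <;> (try push_cast at h0) <;> linarith
  set H : Place QA (X0Bar (M * q * r)) → X0Bar (M * q * r) := fun w =>
    φ (hh (red hS' (below φ w)))
  have hH : ∀ w ∈ T, ev w (H w) ≠ 0 ∧ U.theta V (below α w) = 12 * V.v (ev w (H w)) := by
    intro w hw
    obtain ⟨hch, hn', hθ⟩ := hkey w (Finset.mem_filter.1 hw).2
    rw [show ev w (H w) = _ from ev_map φ w (hch.ordGE (hhint _ hn')), ← hθ]
    exact hhval _ hn' _ hch rfl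
  set c := ∏ w ∈ T, ev w (H w) ^ D' w with hc
  have hc0 : c ≠ 0 := Finset.prod_ne_zero_iff.2 fun w hw => zpow_ne_zero _ (hH w hw).1
  -- invariance
  have hD' : ∀ w, (n : ℤ) * D' w = w.ord (β f) := fun w => by
    rw [show D' w = _ from Divisor.pullbackAlong_apply β hβ D w,
      Place.ord_restrictAlong β hβ w f, hD]
    ring
  obtain ⟨z, hz⟩ := exists_v_eq_intCast hA hc0 fun τ hτ => by
    set γ := arithmeticGalois (modularFunctionFieldFull (M * q * r)) τ with hγ
    have hDinv : ∀ w, D' (γ • w) = D' w := fun w => by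
      have h1 := hD' (γ • w)
      rw [← hfix τ hτ, ← galois_smul_beta, ← hγ, SemilinearAut.ord_smul, ← hD' w] at h1
      exact mul_left_cancel₀ (Int.natCast_ne_zero.2 hn) h1
    have hbα : ∀ w, below α (γ • w) =
        arithmeticGalois (modularFunctionFieldFull (M * q)) τ • below α w :=
      below_smul_comm α γ _ (hαgal τ)
    have hbφ : ∀ w, below φ (γ • w) =
        arithmeticGalois (modularFunctionFieldFull (M * r * q)) τ • below φ w :=
      below_smul_comm φ γ _ (hφgal τ)
    have hP : ∀ w, w ∈ T → γ • w ∈ T := fun w hw => by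
      obtain ⟨hws, hQ, hred⟩ := Finset.mem_filter.1 hw
      obtain ⟨h1, h2⟩ := red_smul hS (liftsInvariant_of_smooth hqM hA (smooth_any hqM hA))
        (by rintro _ ⟨σ, -, rfl⟩; exact galois_smul_X hqM hA σ)
        (inertia_res hA (M * q)) (σ := arithmeticGalois (modularFunctionFieldFull (M * q)) τ)
        ⟨τ, hτ, rfl⟩ hQ
      refine Finset.mem_filter.2 ⟨?_, ?_, ?_⟩
      · rw [Finsupp.mem_support_iff, hDinv]; exact Finsupp.mem_support_iff.1 hws
      · rw [hbα]; exact h1
      · rw [hbα, h2, hred]
    have himg : T.image (fun w => γ • w) = T :=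
      Finset.eq_of_subset_of_card_le
        (fun w' hw' => by
          obtain ⟨w, hw, rfl⟩ := Finset.mem_image.1 hw'
          exact hP w hw)
        (by rw [Finset.card_image_of_injective _ (MulAction.injective γ)])
    rw [← baseAut_arith (N := M * q * r) τ, ← hγ, hc, map_prod]
    conv_rhs => rw [← himg, Finset.prod_image fun a _ b _ hab => MulAction.injective γ hab]
    refine Finset.prod_congr rfl fun w hw => ?_
    obtain ⟨hch, hn', -⟩ := hkey w (Finset.mem_filter.1 hw).2
    have hred' : red hS' (below φ (γ • w)) = red hS' (below φ w) := by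
      rw [hbφ]
      exact (red_smul hS' (liftsInvariant_of_smooth hqMr hA hsm')
        (by rintro _ ⟨σ, -, rfl⟩; exact galois_smul_X hqMr hA σ)
        (inertia_res hA (M * r * q)) (σ := arithmeticGalois (modularFunctionFieldFull (M * r * q)) τ)
        ⟨τ, hτ, rfl⟩ hch).2
    have hHw : OrdGE w 0 (H w) := (ordGE_map_iff φ w).2 (hch.ordGE (hhint _ hn'))
    have hHfix : γ • H w = H w := by
      show γ • φ _ = φ _
      rw [← hφgal, hhfix _ hn' _ ⟨τ, hτ, rfl⟩]
    rw [map_zpow₀, hDinv, ← ev_smul_aut γ w hHw, hHfix, show H (γ • w) = H w from by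
      simp only [H, hred']]
  refine ⟨z, ?_⟩
  rw [hsum, ← hz, hc, V.v_prod _ _ fun w hw => zpow_ne_zero _ (hH w hw).1, Finset.mul_sum]
  refine Finset.sum_congr rfl fun w hw => ?_
  rw [V.v_zpow (hH w hw).1, (hH w hw).2]
  ring

end Level

end FLTAgent.ModLift.LowerAway
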