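import Fermat.Agent.ModLift.LowerAway.Congr

/-!
# Frobenius at a removed prime on the translates killed at the lower level

A class killed by the pushforward with a representative congruent at the finite points to a
multiple of `ub` is brought by `T_r - (r + 1)` to a specialised divisor, so Frobenius acts on it
through the exchange. No condition on the prime `q` not dividing `M` is needed.
-/

set_option autoImplicit false
set_option linter.style.haveILetI false
set_option linter.unusedSectionVars false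
set_option synthInstance.maxHeartbeats 400000
set_option maxHeartbeats 1000000

noncomputable section

open AlgebraicCurve ModularCurve IsLocalRing

namespace FLTAgent.ModLift.LowerAway

open FLTAgent.Curves FLTAgent.Specialization FLTAgent.BadRed FLTAgent.MazurPrinciple
open FLTAgent.Lowering.P7 (RepR HasRes exists_smul_of_dvd exists_transfer
  isPrincipal_divMap_of_zero exists_resOp residual_cusp frobSym frobSym_V exists_res_rel good
  exchangeAt swapAut)
open FLTAgent.EigenLattice (pushPic GoodIdx evalGood opAct opAct_intCast pushTors pushTors_opAct)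

local notation "QA" => AlgebraicClosure ℚ
local notation "GG" => (AlgebraicClosure ℚ ≃ₐ[ℚ] AlgebraicClosure ℚ)

attribute [local instance 2000] Lowering.P7.fullCAlgebra Lowering.P7.laurentAlgebra
  Lowering.P7.x0BarAlgebra

variable {q : ℕ} [Fact q.Prime] [NeZero q] {M : ℕ} [NeZero M] [NeZero (M * q)] (hqM : ¬ q ∣ M)
  {A : ValuationSubring QA} [IsAlgClosed (ResidueField A)] [CharP (ResidueField A) q]
  [Curves.IsFunctionField (ResidueField A) (modularFunctionFieldFullC (ResidueField A) M)]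
  (hA : A.LiesOverPrime q) {n : ℕ} [NeZero n] (S : Finset ℕ) (κ : AlgebraicClosure ℚ →+* ℂ)

local notation "kk" => ResidueField A
local notation "Jk" => modularFunctionFieldFullC (ResidueField A) M
local notation "JM" => Divisor.degZero (K := QA) (F := X0Bar M)

/-- At the finite points the first reduction is congruent modulo `n` to a divisor proportional to
that of `ub`. -/
def IsCongr (U : UnitData (sheetAt hqM hA)) {x : JZero (M * q)} (rx : RepR hqM hA n x) : Prop :=
  ∃ (ν : Divisor kk Jk) (a b : ℤ), b ≠ 0 ∧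
    (∀ P, P.ord (sheetAt hqM hA).MC.xb < 0 → ν P = 0) ∧
    (∀ P, 0 ≤ P.ord (sheetAt hqM hA).MC.xb → b * ν P = a * P.ord U.ub) ∧
    (∀ P, 0 ≤ P.ord (sheetAt hqM hA).MC.xb → (n : ℤ) ∣ P.ord rx.g - ν P)

variable {σ : GG} (hσ : A.IsFrobeniusAt σ q)

include hσ in
/-- `T_r - (r + 1)` brings a congruent class killed below to a specialised divisor. -/
theorem exists_hasRes (hqn : ¬ q ∣ n) (U : UnitData (sheetAt hqM hA))
    (hub : (U.ub : LaurentSeries kk) = unitSer kk q) {r : ℕ} [Fact r.Prime] [NeZero r]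
    (hr : ¬ r ∣ M * q) {x : JZero (M * q)} (rx : RepR hqM hA n x) (hcg : IsCongr hqM hA U rx)
    (hα : pushPic M q (heckeAlphaBar QA M q) x = 0)
    (hαT : pushPic M q (heckeAlphaBar QA M q) (heckeOperatorAlong QA (M * q) r x) = 0) :
    ∃ y, HasRes hqM hA (smooth_any hqM hA) n
      (heckeOperatorAlong QA (M * q) r x + (-((r + 1 : ℕ) : ℤ)) • x) y := by
  classical
  haveI : NeZero (M * r) := ⟨mul_ne_zero (NeZero.ne M) (NeZero.ne r)⟩
  haveI : HasPrincipalDivisors QA (modularFunctionFieldBar (M * r)) :=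
    FLTAgent.Curves.hasPrincipalDivisors
  have hαr : HeckeAlphaBarIntegral QA M r := Kronecker.isIntegralAlong _
  have hβr : HeckeBetaBarIntegral QA M r := Kronecker.isIntegralAlong _
  have hsm := smooth_any hqM hA
  obtain ⟨T, hT, hTd⟩ := exists_resOp hqM hA (BadRed.natCast_ne_zero hqM kk) hsm hr hαr hβr
  obtain ⟨ν, a, b, hb, hν0, hν, hcong⟩ := hcg
  set w := heckeOperatorAlong QA (M * q) r x + (-((r + 1 : ℕ) : ℤ)) • x with hw
  have hwα : pushPic M q (heckeAlphaBar QA M q) w = 0 := by
    rw [hw, map_add, map_zsmul, hαT, hα, smul_zero, add_zero]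
  obtain ⟨rT, hrT⟩ := rx.exists_hecke hT
  obtain ⟨rm, hrm⟩ := rx.exists_zpow (-((r + 1 : ℕ) : ℤ))
  let rs : RepR hqM hA n w := rT.mul rm
  have hdiv : divOf kk rs.g = T (divOf kk rx.g) + (-((r + 1 : ℕ) : ℤ)) • divOf kk rx.g := by
    show divOf kk (rT.g * rm.g) = _
    rw [Specialization.divOf_mul rT.g_ne rm.g_ne, hrT, hrm]
  set MC := (sheetAt hqM hA).MC
  -- the part supported at the cusps and the part divisible by `n`
  set Z := divOf kk rx.g - ν with hZ
  set C := Z.filter fun P : Place kk Jk => P.ord MC.xb < 0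
  obtain ⟨E, hE⟩ := exists_smul_of_dvd (n := n) (Z.filter fun P : Place kk Jk => ¬ P.ord MC.xb < 0)
    fun P => by
      rw [Finsupp.filter_apply]
      split_ifs with hP
      · exact dvd_zero _
      · rw [hZ, Finsupp.sub_apply, Curves.divOf_apply]
        exact hcong P (not_lt.1 hP)
  have hZe : divOf kk rx.g = ν + C + (n : ℤ) • E := by
    rw [← hE, add_assoc, Finsupp.filter_add_filter_not, hZ, add_sub_cancel]
  have hTU := hT.unit U.ub hub U.ub_ne
  -- `T` multiplies `ν` by `r + 1` at the finite points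
  set C' := (divOf kk U.ub).filter fun P : Place kk Jk => P.ord MC.xb < 0
  have hνe : b • ν = a • divOf kk U.ub - a • C' := Finsupp.ext fun P => by
    simp only [C', Finsupp.smul_apply, Finsupp.sub_apply, Finsupp.filter_apply, Curves.divOf_apply,
      smul_eq_mul]
    split_ifs with hP
    · rw [hν0 P hP, mul_zero, sub_self]
    · rw [mul_zero, sub_zero, hν P (not_lt.1 hP)]
  have hTν : ∀ P : Place kk Jk, 0 ≤ P.ord MC.xb → T ν P = ((r + 1 : ℕ) : ℤ) * ν P := by
    intro P hP
    have hTC' : T C' P = 0 := residual_cusp (BadRed.natCast_ne_zero hqM kk) hsm hαr hβr hTd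
      (fun Q hQ => by
        by_contra hn
        exact hQ (Finsupp.filter_apply_neg (fun P : Place kk Jk => P.ord MC.xb < 0) _ hn)) hP
    have h1 : T (b • ν) P = b * T ν P := by rw [map_zsmul, Finsupp.smul_apply, smul_eq_mul]
    rw [hνe, map_sub, map_zsmul, map_zsmul, hTU] at h1
    simp only [Finsupp.sub_apply, Finsupp.smul_apply, Curves.divOf_apply, smul_eq_mul, hTC',
      mul_zero, sub_zero] at h1
    refine mul_left_cancel₀ hb ?_
    rw [← h1, mul_left_comm, ← hν P hP, mul_left_comm]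
  have hfin : ∀ P : Place kk Jk, (n : ℤ) ∣ divOf kk rs.g P := by
    intro P
    by_cases hP : P.ord MC.xb < 0
    · rw [Curves.divOf_apply]
      exact repR_dvd_off_nodes hqM hA hσ U hqn rs hwα fun h =>
        (not_lt.2 (U.mem_nodes.1 h).1) hP
    · have hC0 : C P = 0 := Finsupp.filter_apply_neg (fun P : Place kk Jk => P.ord MC.xb < 0) Z hP
      have hTC : T C P = 0 := residual_cusp (BadRed.natCast_ne_zero hqM kk) hsm hαr hβr hTd
        (fun Q hQ => by
          by_contra hn
          exact hQ (Finsupp.filter_apply_neg (fun P : Place kk Jk => P.ord MC.xb < 0) Z hn))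
        (not_lt.1 hP)
      rw [hdiv, hZe, map_add, map_add, map_zsmul]
      simp only [Finsupp.add_apply, Finsupp.smul_apply, smul_eq_mul, hC0, hTC, add_zero,
        hTν P (not_lt.1 hP)]
      exact ⟨T E P - ((r + 1 : ℕ) : ℤ) * E P, by ring⟩
  obtain ⟨E', hE'⟩ := exists_smul_of_dvd (n := n) (divOf kk rs.g) hfin
  choose s hs using Lowering.P7.place_surjective (BadRed.natCast_ne_zero hqM kk) hsm
  have hlift : ∀ E : Divisor kk Jk,
      Model.divMap hsm (Finsupp.mapDomain s E) = E := fun E => by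
    show Finsupp.mapDomain _ (Finsupp.mapDomain s E) = E
    rw [← Finsupp.mapDomain_comp, show Model.place hsm ∘ s = id from funext hs,
      Finsupp.mapDomain_id]
  have hdeg : Finsupp.mapDomain s E' ∈ Divisor.degZero (K := QA) (F := X0Bar M) := by
    rw [Divisor.mem_degZero, ← Model.degree_divMap hsm, hlift]
    have h1 := Curves.degree_divOf (K := kk) rs.g
    rw [hE', map_zsmul, smul_eq_mul, mul_eq_zero] at h1
    exact h1.resolve_left (Int.natCast_ne_zero.2 (NeZero.ne n))
  exact ⟨Pic0.mk ⟨_, hdeg⟩, rs, ⟨_, hdeg⟩, rfl, by rw [hlift]; exact hE'⟩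

include hA hσ in
/-- **Frobenius is minus `q` times the exchange** on the image of an operator killed below. -/
theorem frobenius_eq (hqn : ¬ q ∣ n) (hnS : ∀ l : ℕ, l.Prime → l ∣ n → l ∈ S)
    (U : UnitData (sheetAt hqM hA)) (hub : (U.ub : LaurentSeries kk) = unitSer kk q)
    (P : MvPolynomial (GoodIdx (M * q) S) ℤ) (hP : evalGood (M * q) S M P = 0)
    {r : ℕ} [Fact r.Prime] [NeZero r] (hr : ¬ r ∣ M * q)
    (x w : Pic0.torsion QA (modularFunctionFieldBar (M * q)) n)
    (hw : (w : JZero (M * q)) =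
      heckeOperatorAlong QA (M * q) r (x : JZero (M * q)) + (-((r + 1 : ℕ) : ℤ)) • (x : JZero (M * q)))
    (rx : RepR hqM hA n (x : JZero (M * q))) (hcg : IsCongr hqM hA U rx)
    (hα : pushPic M q (heckeAlphaBar QA M q) (x : JZero (M * q)) = 0)
    (hαT : pushPic M q (heckeAlphaBar QA M q)
      (heckeOperatorAlong QA (M * q) r (x : JZero (M * q))) = 0) :
    σ • (opAct κ n (evalGood (M * q) S (M * q) P) w : JZero (M * q)) +
      q • (swapAut hqM • (opAct κ n (evalGood (M * q) S (M * q) P) w : JZero (M * q))) = 0 := by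
  haveI := instIsFunctionFieldX0Bar M
  haveI := instIsFunctionFieldX0Bar (M * q)
  have hnk : (n : kk) ≠ 0 := fun h => hqn ((CharP.cast_eq_zero_iff kk q n).1 h)
  have hsm := smooth_any hqM hA
  obtain ⟨y, hy⟩ := exists_hasRes hqM hA hσ hqn U hub hr rx hcg hα hαT
  rw [← hw] at hy
  obtain ⟨e, he1, he2, he3⟩ := exists_transfer hqM hA hsm S κ (n := n) P
  obtain ⟨rz, Y, hY, hd⟩ := he3 w y hy
  have h0 := reduction_eq_zero_of_killsTorsion hA M hqM e he1 (fun m hm u hu => by
    haveI : NeZero m := ⟨hm.ne'⟩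
    have h := he2 m ⟨u, Pic0.mem_torsion.2 (by rw [natCast_zsmul]; exact hu)⟩
    rw [hP, ← Int.cast_zero, opAct_intCast, zero_zsmul] at h
    exact h) y
  rw [← hY] at h0
  obtain ⟨hb, hb0, hbv⟩ := isPrincipal_divMap_of_zero hqM hA hsm h0
  -- the first reduction is a power
  obtain ⟨γ, hγ⟩ := Curves.eq_algebraMap_of_forall_ord_nonneg (K := kk)
    (f := rz.g / hb ^ n) fun v => by
      rw [Curves.ord_div v rz.g_ne (pow_ne_zero _ hb0), Curves.ord_pow, ← Curves.divOf_apply, hd,
        Finsupp.smul_apply, smul_eq_mul, ← hbv, sub_self]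
  have hn0 : n ≠ 0 := NeZero.ne n
  obtain ⟨c, hc⟩ := IsAlgClosed.exists_pow_nat_eq γ (Nat.pos_of_ne_zero hn0)
  set h₁ := algebraMap kk Jk c * hb
  have hg1 : rz.g = h₁ ^ n := by
    rw [mul_pow, ← map_pow, hc, ← hγ, div_mul_cancel₀ _ (pow_ne_zero _ hb0)]
  have hh1 : h₁ ≠ 0 := fun h => rz.g_ne (by rw [hg1, h, zero_pow hn0])
  -- the second one follows
  have hzα : pushPic M q (heckeAlphaBar QA M q)
      (opAct κ n (evalGood (M * q) S (M * q) P) w : JZero (M * q)) = 0 := by
    have h1 := congrArg Subtype.val (pushTors_opAct κ n (heckeAlphaBar QA M q)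
      (fun τ u => (galois_smul_alpha τ u).symm) S hnS P w)
    refine h1.trans ?_
    rw [hP, ← Int.cast_zero, opAct_intCast, zero_zsmul]
    rfl
  obtain ⟨d₂, g₂, hg₂, hr₂⟩ := (sheetAt hqM hA).scaled₂ rz.f rz.f_ne
  obtain ⟨h, hh⟩ := exists_res_rel hqM hA hσ hnk rz.f_ne rz.D rz.ord_f (rz.mk_D.symm ▸ hzα)
    rz.g_ne hg₂ rz.res hr₂
  set ψ := SemilinearAut.toRingAut (Kronecker.specialAut M
    (Kronecker.residueAut A ⟨σ, hσ.mem_decompositionSubgroup⟩))
  set h₂ := ψ.symm (h / h₁)
  have hg2 : g₂ = h₂ ^ n := by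
    refine ψ.injective ?_
    rw [map_pow, RingEquiv.apply_symm_apply, div_pow, ← hg1,
      eq_div_iff rz.g_ne, mul_comm, ← hh]
    rfl
  have hh2 : h₂ ≠ 0 := fun h0 => hg₂ (by rw [hg2, h0, zero_pow hn0])
  have hr1 := rz.res
  rw [hg1] at hr1
  rw [hg2] at hr₂
  have key := (exchangeAt hqM hA).smul_mk_add (good hqM hA hsm) (frobSym hqM hA hσ)
    (frobSym_V hqM hA hσ) hnk rz.D rz.f_ne rz.ord_f hh1 hh2 hr1 hr₂
  rw [rz.mk_D] at key
  rw [galois_smul_pic0_def]
  exact key

end FLTAgent.ModLift.LowerAway
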