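import Fermat.Agent.ModLift.LowerAway.Count
import Fermat.Agent.Lowering.P7.Geometry
import Fermat.Agent.MazurPrinciple.Moved
import Fermat.Agent.MazurPrinciple.WildField

/-!
# Multiplicities and positions at the glued points

Every glued point has a function fixed by inertia, integral, with first reduction vanishing to
exact order one and second reduction zero. It bounds the multiplicity of `ub` by twelve, so the
multiplicity is twelve when there are no elliptic points, and then it measures the position of the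
points over the glued point.
-/

set_option autoImplicit false
set_option linter.style.haveILetI false
set_option linter.unusedSectionVars false
set_option synthInstance.maxHeartbeats 400000
set_option maxHeartbeats 4000000

noncomputable section

open AlgebraicCurve ModularCurve IsLocalRing

namespace FLTAgent.ModLift.LowerAway

open FLTAgent.Curves FLTAgent.Specialization FLTAgent.BadRed FLTAgent.MazurPrinciple
open AlgebraicCurve.SemilinearAut (baseAut)

local notation "QA" => AlgebraicClosure ℚ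
local notation "GG" => (AlgebraicClosure ℚ ≃ₐ[ℚ] AlgebraicClosure ℚ)

section Abstract

variable {L k : Type*} [Field L] [Field k] {A : ValuationSubring L} {π : A →+* k}
  {FC Fb F : Type*} [Field FC] [Field Fb] [Field F] [Algebra L FC]
  [Algebra k Fb] [Algebra L F] [IsAlgClosed L] [IsFunctionField L FC] [IsFunctionField L F]
  [IsAlgClosed k] [IsFunctionField k Fb] {q : ℕ} [Fact q.Prime] [CharP k q] {S : Sheet π FC Fb F q}
  (U : UnitData S) (V : RatVal π q) (hS : S.Good)

include U V hS in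
/-- The position over a glued point of multiplicity twelve. -/
theorem theta_eq {h : F} (hint : IntegralWrt L S.X h) {a : Fb} (ha : a ≠ 0)
    (h1 : S.R₁.Res h a) (h2 : (q : L)⁻¹ • h ∈ S.R₂.O) {t : Place k Fb} (ht : t ∈ U.nodes)
    (hta : t.ord a = 1) (h12 : t.ord U.ub = 12) (hUw : U.w = 12)
    {Q : Place L F} (hQ : InChart S Q) (hred : red hS Q = t) :
    ev Q h ≠ 0 ∧ U.theta V Q = 12 * V.v (ev Q h) := by
  have hp0 : ((q : L) ^ 12) ≠ 0 := pow_ne_zero _ V.p_ne
  set Z : F := h ^ 12 * (((q : L) ^ 12)⁻¹ • U.u') with hZ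
  have hintZ : IntegralWrt L S.X Z := by
    rw [hZ, Algebra.smul_def]
    exact integralWrt_mul (integralWrt_pow hint 12)
      (integralWrt_mul (integralWrt_algebraMap _ _) U.u'_int)
  have hinv : ((q : L) ^ 12)⁻¹ • U.u' = U.u⁻¹ := by
    rw [Algebra.smul_def, map_inv₀, ← hUw, ← U.mul_eq, mul_inv, mul_assoc, inv_mul_cancel₀ U.u'_ne,
      mul_one]
  have e1 : S.R₁.Res Z (a ^ 12 * U.ub⁻¹) := by
    rw [hZ, hinv]
    exact (h1.pow 12).mul (U.u_res.inv U.ub_ne)
  have e2 : Z ∈ S.R₂.O := by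
    have e : Z = ((q : L)⁻¹ • h) ^ 12 * U.u' := by
      rw [hZ, _root_.smul_pow, smul_mul_assoc, inv_pow, mul_smul_comm]
    rw [e]
    exact mul_mem (pow_mem h2 12) U.u'_res.mem
  obtain ⟨b, hb⟩ := S.R₂.exists_res_of_mem e2
  obtain ⟨hmem, hres⟩ := value_node U V hS hintZ e1 hb ht hQ hred
  have hw0 : a ^ 12 * U.ub⁻¹ ≠ 0 := mul_ne_zero (pow_ne_zero _ ha) (inv_ne_zero U.ub_ne)
  have hwt : t.ord (a ^ 12 * U.ub⁻¹) = 0 := by
    rw [t.ord_mul (pow_ne_zero _ ha) (inv_ne_zero U.ub_ne), Curves.ord_pow, t.ord_inv, hta, h12]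
    norm_num
  obtain ⟨hne, hv⟩ := V.v_eq_zero_of_res (a := ⟨_, hmem⟩) (hres ▸ ev_ne_zero_of_ord hw0 hwt)
  simp only at hne hv
  have hu := U.ev_ne V hQ
  have e : ev Q Z * ev Q U.u = ev Q h ^ 12 := by
    have h12' : OrdGE Q 0 (h ^ 12) := hQ.ordGE (integralWrt_pow hint 12)
    rw [← ev_mul Q (hQ.ordGE hintZ) (hQ.ordGE U.u_int), ← ev_pow Q (hQ.ordGE hint)]
    congr 1
    rw [hZ, hinv, mul_assoc, inv_mul_cancel₀ (fun h0 => hu (by rw [h0, ev_zero])), mul_one]
  have hh : ev Q h ≠ 0 := fun h0 => mul_ne_zero hne hu (by rw [e, h0, zero_pow (by norm_num)])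
  refine ⟨hh, ?_⟩
  have := congrArg V.v e
  rw [V.v_mul _ _ hne hu, hv, zero_add, V.v_pow hh] at this
  rw [UnitData.theta, this]
  norm_num

end Abstract

section Level

variable {q : ℕ} [Fact q.Prime] [NeZero q] {M : ℕ} [NeZero M] [NeZero (M * q)] (hqM : ¬ q ∣ M)
  {A : ValuationSubring QA} [IsAlgClosed (ResidueField A)] [CharP (ResidueField A) q]
  [Curves.IsFunctionField (ResidueField A) (modularFunctionFieldFullC (ResidueField A) M)]
  (hA : A.LiesOverPrime q)

local notation "kk" => ResidueField A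
local notation "galN" => arithmeticGalois (modularFunctionFieldFull (M * q))

include hA in
/-- A function fixed by inertia and a uniformiser at a glued point. -/
theorem exists_uniformiser (U : UnitData (sheetAt hqM hA))
    {t : Place kk (modularFunctionFieldFullC kk M)} (ht : t ∈ U.nodes) :
    ∃ (h : X0Bar (M * q)) (a : modularFunctionFieldFullC kk M),
      IntegralWrt QA (sheetAt hqM hA).X h ∧ (sheetAt hqM hA).R₁.Res h a ∧ t.ord a = 1 ∧
      (q : QA)⁻¹ • h ∈ (sheetAt hqM hA).R₂.O ∧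
      ∀ σ ∈ inertiaSet A (M * q), σ • h = h := by
  classical
  haveI := Specialization.instIsFunctionFieldX0Bar M
  haveI := Specialization.instIsFunctionFieldX0Bar (M * q)
  have hsm := smooth_any hqM hA
  have hS := Lowering.P7.good hqM hA hsm
  set V := ratVal hA
  obtain ⟨σ, hσ⟩ := Frobenius.exists_isFrobeniusAt A q (Fact.out : q.Prime) hA
  obtain ⟨Φ, hΦ⟩ := Entry.Surj.exists_frob hqM hA hσ
  obtain ⟨N⟩ := hS.nonempty_nodes
  obtain ⟨i, hi⟩ := ev_node_eq_s U V hS N ht
  have ht0 := (U.mem_nodes.1 ht).1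
  obtain ⟨-, w, -, -, hw0, hwint, -, hws⟩ := exists_regular_prescribed hS
    (Finsupp.single t 1) (Finsupp.single_nonneg.2 zero_le_one) {t} (by simpa using ht0)
  have hwt : t.ord w = 1 := by rw [hws t (Finset.mem_singleton_self t), Finsupp.single_eq_same]
  have hVw := (sheetAt hqM hA).V_mem_regular hwint
  set w₂ := Φ.φ.symm w
  have hw₂ : w₂ ^ q = (sheetAt hqM hA).V w := by
    rw [← Lowering.P7.frobSym_V hqM hA hσ w₂, ← hΦ, RingEquiv.apply_symm_apply]
  have hw₂int : IntegralWrt kk (sheetAt hqM hA).MC.xb w₂ :=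
    (sheetAt hqM hA).regular_of_pow (hw₂ ▸ hVw)
  obtain ⟨m₀, hm₀⟩ := liftsInvariant_of_smooth hqM hA hsm
  have hlift : ∀ {z : modularFunctionFieldFullC kk M}, IntegralWrt kk (sheetAt hqM hA).MC.xb z →
      ∃ ψ, IntegralWrt QA (sheetAt hqM hA).MC.x ψ ∧ (sheetAt hqM hA).MC.Res ψ z ∧
        ∀ τ ∈ A.inertiaSubgroupIn ℚ,
          galN τ • (sheetAt hqM hA).α ψ = (sheetAt hqM hA).α ψ ∧
          galN τ • (sheetAt hqM hA).β ψ = (sheetAt hqM hA).β ψ := by
    intro z hz
    obtain ⟨m₁, hm₁⟩ := exists_mem_poles hz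
    obtain ⟨ψ, hψ, hres, hfix⟩ := hm₀ (max m₁ m₀) (le_max_right _ _) z
      (poles_mono (le_max_left _ _) hm₁)
    refine ⟨ψ, (mem_rrSpace_poles.1 hψ).1, hres, fun τ hτ => ?_⟩
    have h1 : galN τ • (sheetAt hqM hA).α ψ = (sheetAt hqM hA).α ψ := hfix _ ⟨τ, hτ, rfl⟩
    refine ⟨h1, ?_⟩
    change galN τ • heckeAlphaBar QA M q ψ = heckeAlphaBar QA M q ψ at h1
    rw [galois_smul_alpha] at h1
    show galN τ • heckeBetaBar QA M q ψ = heckeBetaBar QA M q ψ
    rw [galois_smul_beta, (heckeAlphaBar QA M q).injective h1]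
  obtain ⟨ψ₁, hψ₁, hr₁, hf₁⟩ := hlift hwint
  obtain ⟨ψ₂, hψ₂, hr₂, hf₂⟩ := hlift hw₂int
  set h : X0Bar (M * q) := (sheetAt hqM hA).α ψ₁ - (sheetAt hqM hA).β ψ₂ ^ q with hh
  set a := w - (sheetAt hqM hA).V ((sheetAt hqM hA).V w) with ha
  have hint : IntegralWrt QA (sheetAt hqM hA).X h :=
    integralWrt_sub (integralWrt_α hψ₁) (integralWrt_pow (integralWrt_β hS hψ₂) q)
  have h1 : (sheetAt hqM hA).R₁.Res h a := by
    have := ((sheetAt hqM hA).α₁ _ _ hr₁).sub (((sheetAt hqM hA).β₁ _ _ hr₂).pow q)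
    rwa [← map_pow (sheetAt hqM hA).V, hw₂] at this
  have h2 : (sheetAt hqM hA).R₂.Res h 0 := by
    have := ((sheetAt hqM hA).α₂ _ _ hr₁).sub (((sheetAt hqM hA).β₂ _ _ hr₂).pow q)
    rwa [hw₂, sub_self] at this
  have hevw : ev t w = 0 := (ev_eq_zero_iff t (hwint t ht0)).2 (ordGE_of_le hwt.ge)
  have hV2 : ev t ((sheetAt hqM hA).V ((sheetAt hqM hA).V w)) = 0 := by
    rw [← hi _ ((sheetAt hqM hA).V_mem_regular hVw), N.s_V i w hwint, hi _ hwint, hevw]
  have hsq : OrdGE t 2 ((sheetAt hqM hA).V ((sheetAt hqM hA).V w)) := by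
    have hreg : IntegralWrt kk (sheetAt hqM hA).MC.xb ((sheetAt hqM hA).V w₂) :=
      (sheetAt hqM hA).V_mem_regular hw₂int
    rw [← hw₂, map_pow] at hV2 ⊢
    rw [ev_pow t (hreg t ht0), pow_eq_zero_iff (Fact.out : q.Prime).ne_zero,
      ev_eq_zero_iff t (hreg t ht0)] at hV2
    refine (hV2.pow q).mono ?_
    have := (Fact.out : q.Prime).two_le
    omega
  have hta : t.ord a = 1 := by
    have hne : a ≠ 0 := fun h0 => by
      rw [ha, sub_eq_zero] at h0
      rw [← h0] at hsq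
      have := hsq.le_ord hw0
      omega
    refine le_antisymm ?_ ?_
    · by_contra hlt
      have h3 : OrdGE t 2 w := by
        have := (ordGE_of_le (f := a) (show (2 : ℤ) ≤ t.ord a by omega)).add hsq
        rwa [ha, sub_add_cancel] at this
      have := h3.le_ord hw0
      omega
    · exact ((ordGE_of_le hwt.ge).sub (hsq.mono (by norm_num))).le_ord hne
  have ha0 : a ≠ 0 := fun h0 => by rw [h0, t.ord_zero] at hta; omega
  have hfix : ∀ τ ∈ A.inertiaSubgroupIn ℚ, galN τ • h = h := fun τ hτ => by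
    rw [hh, smul_sub, smul_pow', (hf₁ τ hτ).1, (hf₂ τ hτ).2]
  refine ⟨h, a, hint, h1, hta, ?_, by rintro _ ⟨τ, hτ, rfl⟩; exact hfix τ hτ⟩
  obtain ⟨-, d, -, g, -, hd, -, hg, -, hdG, -, hdres⟩ := exists_fixed_scales hqM hA hsm
    (G := A.inertiaSubgroupIn ℚ) le_rfl (h1.ne_zero ha0) hfix
  obtain ⟨z, hz⟩ := exists_v_eq_intCast hA hd hdG
  have hdA : d ∉ A := fun hmem => hg (hdres.unique (by
    have := h2.smul ⟨d, hmem⟩
    rwa [smul_zero] at this))
  have hz1 : z ≤ -1 := by
    by_contra hlt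
    exact hdA ((V.mem_iff _ hd).2 (by rw [hz]; exact_mod_cast (show (0 : ℤ) ≤ z by omega)))
  have hcA : (q : QA)⁻¹ / d ∈ A := by
    refine (V.mem_iff _ (div_ne_zero (inv_ne_zero V.p_ne) hd)).2 ?_
    rw [V.v_div (inv_ne_zero V.p_ne) hd, V.v_inv V.p_ne, V.v_p, hz]
    have : (z : ℚ) ≤ -1 := by exact_mod_cast hz1
    linarith
  have := smul_mem_O hcA hdres.mem
  rwa [smul_smul, div_mul_cancel₀ _ hd] at this

include hA in
/-- Without elliptic points every glued point has multiplicity twelve. -/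
theorem ord_ub_eq_twelve {r : ℕ} [Fact r.Prime] (hrM : r ∣ M) (hr : r % 12 = 11)
    (U : UnitData (sheetAt hqM hA)) (hub : (U.ub : LaurentSeries kk) = unitSer kk q)
    (hUw : U.w = 12) {t : Place kk (modularFunctionFieldFullC kk M)} (ht : t ∈ U.nodes) : t.ord U.ub = 12 := by
  classical
  haveI := Specialization.instIsFunctionFieldX0Bar M
  haveI := Specialization.instIsFunctionFieldX0Bar (M * q)
  have hS := Lowering.P7.good hqM hA (smooth_any hqM hA)
  set V := ratVal hA
  obtain ⟨N⟩ := hS.nonempty_nodes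
  have hle : ∀ t' ∈ U.nodes, t'.ord U.ub ≤ 12 := fun t' ht' => by
    obtain ⟨h, a, hint, h1, ha1, h2, -⟩ := exists_uniformiser hqM hA U ht'
    have ha0 : a ≠ 0 := fun h0 => by rw [h0, t'.ord_zero] at ha1; omega
    have := ub_ord_le U V hint ha0 h1 (inv_ne_zero V.p_ne) h2 (l := 12)
      (by rw [V.v_inv V.p_ne, V.v_p, hUw]; norm_num) ht'
    simpa [ha1] using this
  have hsum : ∑ t' ∈ U.nodes, t'.ord U.ub = ∑ _t' ∈ U.nodes, (12 : ℤ) := by
    rw [sum_ord_ub hqM hA U hub, ← twelve_nodes hqM hA hrM hr N, Finset.sum_const,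
      nodes_card U V hS N, nsmul_eq_mul, mul_comm]
  exact (Finset.sum_eq_sum_iff_of_le hle).1 hsum t ht

end Level

end FLTAgent.ModLift.LowerAway
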